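import Mathlib

/-!
# The two rings attached to an integer `N`

For a number field `E` and `N ≥ 1`:
* `RS E N = 𝓞 E [1 / N]` (integral outside `N`),
* `AS E N` = elements integral at `N` (`n x` integral for some `n ≠ 0` prime to `N`),
* `RS ∩ AS = 𝓞 E`, density of `RS` in `E` for the `N`-adic topology,
* the lattices `Lam g = RS ∩ g AS` and (a bound for) their duals,
* traces and norms.
-/

set_option autoImplicit false
set_option linter.unusedSectionVars false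

namespace Fermat.Agent.LT.SAd

open NumberField

section Rings

variable (E : Type*) [Field E] [CharZero E] (N : ℕ)

variable {E} in
theorem isIntegral_natCast (m : ℕ) : IsIntegral ℤ (m : E) := by
  simpa using (isIntegral_algebraMap (x := (m : ℤ)) : IsIntegral ℤ (algebraMap ℤ E (m : ℤ)))

/-- `𝓞 E [1 / N]`. -/
def RS : Subring E where
  carrier := {x | ∃ j : ℕ, IsIntegral ℤ ((N : E) ^ j * x)}
  one_mem' := ⟨0, by simpa using isIntegral_one⟩
  zero_mem' := ⟨0, by simpa using isIntegral_zero⟩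
  mul_mem' := by
    rintro x y ⟨i, hi⟩ ⟨j, hj⟩
    refine ⟨i + j, ?_⟩
    have : (N : E) ^ (i + j) * (x * y) = ((N : E) ^ i * x) * ((N : E) ^ j * y) := by ring
    rw [this]
    exact hi.mul hj
  add_mem' := by
    rintro x y ⟨i, hi⟩ ⟨j, hj⟩
    refine ⟨i + j, ?_⟩
    have : (N : E) ^ (i + j) * (x + y) =
        (N : E) ^ j * ((N : E) ^ i * x) + (N : E) ^ i * ((N : E) ^ j * y) := by ring
    rw [this]
    have hN : IsIntegral ℤ (N : E) := isIntegral_natCast N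
    exact ((hN.pow j).mul hi).add ((hN.pow i).mul hj)
  neg_mem' := by
    rintro x ⟨i, hi⟩
    refine ⟨i, ?_⟩
    rw [mul_neg]
    exact hi.neg

/-- the elements of `E` which are integral at `N`. -/
def AS : Subring E where
  carrier := {x | ∃ n : ℕ, n ≠ 0 ∧ n.Coprime N ∧ IsIntegral ℤ ((n : E) * x)}
  one_mem' := ⟨1, one_ne_zero, Nat.coprime_one_left N, by simpa using isIntegral_one⟩
  zero_mem' := ⟨1, one_ne_zero, Nat.coprime_one_left N, by simpa using isIntegral_zero⟩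
  mul_mem' := by
    rintro x y ⟨i, h0, h1, hi⟩ ⟨j, g0, g1, hj⟩
    refine ⟨i * j, mul_ne_zero h0 g0, Nat.Coprime.mul_left h1 g1, ?_⟩
    have : ((i * j : ℕ) : E) * (x * y) = ((i : E) * x) * ((j : E) * y) := by push_cast; ring
    rw [this]
    exact hi.mul hj
  add_mem' := by
    rintro x y ⟨i, h0, h1, hi⟩ ⟨j, g0, g1, hj⟩
    refine ⟨i * j, mul_ne_zero h0 g0, Nat.Coprime.mul_left h1 g1, ?_⟩
    have : ((i * j : ℕ) : E) * (x + y) = (j : E) * ((i : E) * x) + (i : E) * ((j : E) * y) := by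
      push_cast; ring
    rw [this]
    exact ((isIntegral_natCast j).mul hi).add ((isIntegral_natCast i).mul hj)
  neg_mem' := by
    rintro x ⟨i, h0, h1, hi⟩
    refine ⟨i, h0, h1, ?_⟩
    rw [mul_neg]
    exact hi.neg

variable {E N}

theorem mem_RS {x : E} : x ∈ RS E N ↔ ∃ j : ℕ, IsIntegral ℤ ((N : E) ^ j * x) := Iff.rfl

theorem mem_AS {x : E} : x ∈ AS E N ↔
    ∃ n : ℕ, n ≠ 0 ∧ n.Coprime N ∧ IsIntegral ℤ ((n : E) * x) := Iff.rfl

theorem mem_RS_of_isIntegral {x : E} (hx : IsIntegral ℤ x) : x ∈ RS E N := ⟨0, by simpa using hx⟩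

theorem mem_AS_of_isIntegral {x : E} (hx : IsIntegral ℤ x) : x ∈ AS E N :=
  ⟨1, one_ne_zero, Nat.coprime_one_left N, by simpa using hx⟩

/-- `RS ∩ AS` consists of the integral elements. -/
theorem isIntegral_of_mem {x : E} (h1 : x ∈ RS E N) (h2 : x ∈ AS E N) : IsIntegral ℤ x := by
  obtain ⟨j, hj⟩ := h1
  obtain ⟨n, -, hn, hi⟩ := h2
  have hc : IsCoprime (n : ℤ) ((N : ℤ) ^ j) := (Nat.isCoprime_iff_coprime.2 hn).pow_right
  obtain ⟨u, v, huv⟩ := hc
  have hx : x = (u : E) * ((n : E) * x) + (v : E) * ((N : E) ^ j * x) := by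
    have : ((u * n + v * N ^ j : ℤ) : E) = 1 := by rw [huv]; simp
    push_cast at this
    calc x = 1 * x := (one_mul x).symm
      _ = ((u : E) * n + v * (N : E) ^ j) * x := by rw [this]
      _ = _ := by ring
  rw [hx]
  have hz : ∀ m : ℤ, IsIntegral ℤ (m : E) := fun m => by
    simpa using (isIntegral_algebraMap (x := m) : IsIntegral ℤ (algebraMap ℤ E m))
  exact ((hz u).mul hi).add ((hz v).mul hj)

theorem isIntegral_iff {x : E} : IsIntegral ℤ x ↔ x ∈ RS E N ∧ x ∈ AS E N :=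
  ⟨fun h => ⟨mem_RS_of_isIntegral h, mem_AS_of_isIntegral h⟩, fun h => isIntegral_of_mem h.1 h.2⟩

/-- splitting an integer into an `N`-part and a part prime to `N`. -/
theorem exists_dvd_pow_mul (N : ℕ) (M : ℕ) (hM : M ≠ 0) :
    ∃ j n : ℕ, n ≠ 0 ∧ n.Coprime N ∧ M ∣ N ^ j * n := by
  induction M using Nat.strong_induction_on with
  | _ M ih =>
    by_cases hc : M.Coprime N
    · exact ⟨0, M, hM, hc, by simp⟩
    · obtain ⟨p, hp, hpM, hpN⟩ := Nat.Prime.not_coprime_iff_dvd.1 hc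
      obtain ⟨M', rfl⟩ := hpM
      have h0 : M' ≠ 0 := fun h => hM (by simp [h])
      obtain ⟨j, n, hn, hcn, hd⟩ := ih M' (by
        have := hp.two_le
        have := Nat.pos_of_ne_zero h0
        nlinarith) h0
      refine ⟨j + 1, n, hn, hcn, ?_⟩
      have : N ^ (j + 1) * n = N * (N ^ j * n) := by ring
      rw [this]
      exact mul_dvd_mul hpN hd

variable [Algebra ℚ E] [FiniteDimensional ℚ E]

/-- every element of `E` becomes integral after multiplication by `N ^ j` and an integer prime to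
`N`. -/
theorem exists_split (N : ℕ) (x : E) : ∃ j n : ℕ, n ≠ 0 ∧ n.Coprime N ∧
    IsIntegral ℤ ((N : E) ^ j * ((n : E) * x)) := by
  obtain ⟨M, hM, hi⟩ : ∃ M : ℕ, M ≠ 0 ∧ IsIntegral ℤ ((M : E) * x) := by
    have hx : IsAlgebraic ℤ x :=
      (IsFractionRing.isAlgebraic_iff ℤ ℚ E).2 (Algebra.IsAlgebraic.isAlgebraic x)
    obtain ⟨y, hy, h⟩ := hx.exists_integral_multiple
    refine ⟨y.natAbs, Int.natAbs_ne_zero.2 hy, ?_⟩
    rw [zsmul_eq_mul] at h
    rcases Int.natAbs_eq y with h1 | h1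
    · rw [h1] at h
      simpa using h
    · rw [h1] at h
      have := h.neg
      simpa using this
  obtain ⟨j, n, hn, hc, c, hc'⟩ := exists_dvd_pow_mul N M hM
  refine ⟨j, n, hn, hc, ?_⟩
  have : (N : E) ^ j * ((n : E) * x) = (c : E) * ((M : E) * x) := by
    have h : ((N ^ j * n : ℕ) : E) = ((M * c : ℕ) : E) := by rw [hc']
    push_cast at h
    rw [← mul_assoc, h]; ring
  rw [this]
  exact (isIntegral_natCast c).mul hi

theorem exists_pow_mul_mem_AS (N : ℕ) (x : E) : ∃ j : ℕ, (N : E) ^ j * x ∈ AS E N := by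
  obtain ⟨j, n, hn, hc, h⟩ := exists_split N x
  refine ⟨j, n, hn, hc, ?_⟩
  have : (n : E) * ((N : E) ^ j * x) = (N : E) ^ j * ((n : E) * x) := by ring
  rwa [this]

theorem exists_mul_mem_RS (N : ℕ) (x : E) :
    ∃ n : ℕ, n ≠ 0 ∧ n.Coprime N ∧ (n : E) * x ∈ RS E N := by
  obtain ⟨j, n, hn, hc, h⟩ := exists_split N x
  exact ⟨n, hn, hc, j, h⟩

omit [Algebra ℚ E] [FiniteDimensional ℚ E] in
theorem natCast_inv_mem_AS {n : ℕ} (hn : n ≠ 0) (hc : n.Coprime N) : (n : E)⁻¹ ∈ AS E N :=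
  ⟨n, hn, hc, by rw [mul_inv_cancel₀ (Nat.cast_ne_zero.2 hn)]; exact isIntegral_one⟩

omit [Algebra ℚ E] [FiniteDimensional ℚ E] in
theorem natCast_mem_AS (n : ℕ) : (n : E) ∈ AS E N := natCast_mem _ n

/-- density: `x ∈ RS` with `x / g ∈ 1 + N ^ k AS`. -/
theorem exists_near [NeZero N] (g : E) (k : ℕ) :
    ∃ x ∈ RS E N, ∃ y ∈ AS E N, x - g = g * (N : E) ^ k * y := by
  obtain ⟨n, hn, hc, h⟩ := exists_mul_mem_RS N g
  obtain ⟨u, v, huv⟩ : IsCoprime (n : ℤ) ((N : ℤ) ^ k) := (Nat.isCoprime_iff_coprime.2 hc).pow_right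
  refine ⟨(u : E) * ((n : E) * g), (RS E N).mul_mem (intCast_mem _ u) h, -(v : E),
    (AS E N).neg_mem (intCast_mem _ v), ?_⟩
  have : ((u * n + v * N ^ k : ℤ) : E) = 1 := by rw [huv]; simp
  push_cast at this
  have h2 : (u : E) * n = 1 - v * (N : E) ^ k := by rw [← this]; ring
  rw [← mul_assoc, h2]
  ring

theorem isIntegral_rat {r : ℚ} (h : IsIntegral ℤ r) : ∃ n : ℤ, (n : ℚ) = r := by
  obtain ⟨n, hn⟩ := (IsIntegrallyClosed.isIntegral_iff (R := ℤ) (K := ℚ)).1 h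
  exact ⟨n, by simpa using hn⟩

/-! ### Lattices -/

/-- `RS ∩ g AS`, as a module over `𝓞 E`. -/
def Lam (N : ℕ) (g : E) : Submodule (𝓞 E) E where
  carrier := {x | x ∈ RS E N ∧ g⁻¹ * x ∈ AS E N}
  zero_mem' := ⟨(RS E N).zero_mem, by rw [mul_zero]; exact (AS E N).zero_mem⟩
  add_mem' := by
    rintro x y ⟨h1, h2⟩ ⟨h3, h4⟩
    exact ⟨(RS E N).add_mem h1 h3, by rw [mul_add]; exact (AS E N).add_mem h2 h4⟩
  smul_mem' := by
    rintro c x ⟨h1, h2⟩
    have hc : IsIntegral ℤ (c : E) := c.2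
    refine ⟨(RS E N).mul_mem (mem_RS_of_isIntegral hc) h1, ?_⟩
    have : g⁻¹ * (c • x) = (c : E) * (g⁻¹ * x) := by
      rw [Algebra.smul_def]
      change g⁻¹ * ((c : E) * x) = _
      ring
    rw [this]
    exact (AS E N).mul_mem (mem_AS_of_isIntegral hc) h2

theorem mem_Lam {g x : E} : x ∈ Lam N g ↔ x ∈ RS E N ∧ g⁻¹ * x ∈ AS E N := Iff.rfl

/-- `N ^ j` is in the lattice for some `j`. -/
theorem exists_pow_mul_mem_Lam (N : ℕ) (g : E) :
    ∃ j : ℕ, ∀ x : E, IsIntegral ℤ x → (N : E) ^ j * x ∈ Lam N g := by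
  obtain ⟨j, hj⟩ := exists_pow_mul_mem_AS N g⁻¹
  refine ⟨j, fun x hx => ⟨?_, ?_⟩⟩
  · exact (RS E N).mul_mem ((RS E N).pow_mem (natCast_mem _ N) j) (mem_RS_of_isIntegral hx)
  · have : g⁻¹ * ((N : E) ^ j * x) = ((N : E) ^ j * g⁻¹) * x := by ring
    rw [this]
    exact (AS E N).mul_mem hj (mem_AS_of_isIntegral hx)

/-- the lattice is contained in `N ^ (-j) 𝓞 E` for some `j`. -/
theorem exists_isIntegral_of_mem_Lam (N : ℕ) {g : E} (hg : g ≠ 0) :
    ∃ j : ℕ, ∀ x ∈ Lam N g, IsIntegral ℤ ((N : E) ^ j * x) := by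
  obtain ⟨j, hj⟩ := exists_pow_mul_mem_AS N g
  refine ⟨j, fun x hx => isIntegral_of_mem (N := N) ?_ ?_⟩
  · exact (RS E N).mul_mem ((RS E N).pow_mem (natCast_mem _ N) j) hx.1
  · have : (N : E) ^ j * x = ((N : E) ^ j * g) * (g⁻¹ * x) := by
      field_simp
    rw [this]
    exact (AS E N).mul_mem hj hx.2

/-- an element which generates the lattice at `N`. -/
theorem exists_mul_mem_Lam (N : ℕ) {g : E} (hg : g ≠ 0) :
    ∃ n : ℕ, n ≠ 0 ∧ n.Coprime N ∧ (n : E) * g ∈ Lam N g := by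
  obtain ⟨n, hn, hc, h⟩ := exists_mul_mem_RS N g
  refine ⟨n, hn, hc, h, ?_⟩
  have : g⁻¹ * ((n : E) * g) = n := by field_simp
  rw [this]
  exact natCast_mem_AS n

/-- **The dual lattice**: if `N ^ m` times the inverse different is integral, the dual of `Lam g` is
contained in `RS ∩ (N ^ m g)⁻¹ AS`. -/
theorem dual_bound {m : ℕ}
    (hD : ∀ y : E, (∀ x : E, IsIntegral ℤ x → ∃ n : ℤ, (n : ℚ) = Algebra.trace ℚ E (x * y)) →
      IsIntegral ℤ ((N : E) ^ m * y))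
    {g : E} (hg : g ≠ 0) {y : E}
    (hy : ∀ x ∈ Lam N g, ∃ n : ℤ, (n : ℚ) = Algebra.trace ℚ E (x * y)) :
    y ∈ RS E N ∧ (N : E) ^ m * g * y ∈ AS E N := by
  have h1 : ∀ x ∈ Lam N g, IsIntegral ℤ ((N : E) ^ m * (x * y)) := by
    intro x hx
    refine hD _ (fun z hz => ?_)
    have hzx : z * x ∈ Lam N g := (Lam N g).smul_mem (⟨z, hz⟩ : 𝓞 E) hx
    obtain ⟨n, hn⟩ := hy _ hzx
    exact ⟨n, by rw [hn, mul_assoc]⟩
  constructor
  · obtain ⟨j, hj⟩ := exists_pow_mul_mem_Lam N g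
    have h2 := h1 _ (hj 1 isIntegral_one)
    refine ⟨m + j, ?_⟩
    rw [mul_one] at h2
    rw [pow_add, mul_assoc]
    exact h2
  · obtain ⟨n, hn, hc, h⟩ := exists_mul_mem_Lam N hg
    refine ⟨n, hn, hc, ?_⟩
    have h2 := h1 _ h
    have : (n : E) * ((N : E) ^ m * g * y) = (N : E) ^ m * ((n : E) * g * y) := by ring
    rwa [this]

end Rings

end Fermat.Agent.LT.SAd
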