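import Fermat.Agent.LT.Theta11.SRings

/-!
# The conditions of the transformation law of the theta kernel, in `N`-adic form

`E / F` quadratic, `σ` the conjugation, `q = Algebra.norm F`, `B (x, y) = Tr (x σ y)`.
For `h ∈ Eˣ` and `γ = (a b; c d) ∈ SL₂(RS)` with `b q(h) / d ∈ AS`, `c d / q(h) ∈ N ^ m AS` all the
conditions of the law hold for `Λ = Lam (h N ^ k)`, `Λ₂ = Lam (h N ^ k / d)`.
-/

set_option autoImplicit false
set_option linter.unusedSectionVars false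

namespace Fermat.Agent.LT.SAd

open NumberField

section Ext

variable {F E : Type*} [Field F] [CharZero F] [Field E] [CharZero E] [Algebra F E] {N : ℕ}

theorem isIntegral_map {x : F} (hx : IsIntegral ℤ x) : IsIntegral ℤ (algebraMap F E x) :=
  hx.map (algebraMap F E).toIntAlgHom

theorem map_mem_RS {x : F} (hx : x ∈ RS F N) : algebraMap F E x ∈ RS E N := by
  obtain ⟨j, hj⟩ := hx
  refine ⟨j, ?_⟩
  have := isIntegral_map (E := E) hj
  rwa [map_mul, map_pow, map_natCast] at this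

theorem map_mem_AS {x : F} (hx : x ∈ AS F N) : algebraMap F E x ∈ AS E N := by
  obtain ⟨n, h0, h1, hj⟩ := hx
  refine ⟨n, h0, h1, ?_⟩
  have := isIntegral_map (E := E) hj
  rwa [map_mul, map_natCast] at this

variable (σ : E ≃ₐ[F] E)

theorem conj_isIntegral {x : E} (hx : IsIntegral ℤ x) : IsIntegral ℤ (σ x) :=
  hx.map ((σ : E →+* E).toIntAlgHom)

theorem conj_mem_RS {x : E} (hx : x ∈ RS E N) : σ x ∈ RS E N := by
  obtain ⟨j, hj⟩ := hx
  refine ⟨j, ?_⟩
  have := conj_isIntegral σ hj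
  rwa [map_mul, map_pow, map_natCast] at this

theorem conj_mem_AS {x : E} (hx : x ∈ AS E N) : σ x ∈ AS E N := by
  obtain ⟨n, h0, h1, hj⟩ := hx
  refine ⟨n, h0, h1, ?_⟩
  have := conj_isIntegral σ hj
  rwa [map_mul, map_natCast] at this

theorem isIntegral_of_map {x : F} (hx : IsIntegral ℤ (algebraMap F E x)) : IsIntegral ℤ x :=
  (isIntegral_algHom_iff ((algebraMap F E).toIntAlgHom) (algebraMap F E).injective).1 hx

theorem isIntegral_trace' [FiniteDimensional F E] {x : E} (hx : IsIntegral ℤ x) :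
    IsIntegral ℤ (Algebra.trace F E x) := Algebra.isIntegral_trace hx

end Ext

section Cosets

variable {E : Type*} [Field E] [CharZero E] [Algebra ℚ E] [FiniteDimensional ℚ E]

/-- the set `R' ∩ h (1 + N ^ k AS)`. -/
def T (N : ℕ) (h : E) (k : ℕ) : Set E := {x | x ∈ RS E N ∧ (h * (N : E) ^ k)⁻¹ * (x - h) ∈ AS E N}

theorem mem_T {N : ℕ} {h : E} {k : ℕ} {x : E} :
    x ∈ T N h k ↔ x ∈ RS E N ∧ (h * (N : E) ^ k)⁻¹ * (x - h) ∈ AS E N := Iff.rfl

theorem mem_T_iff_sub {N : ℕ} {h : E} {k : ℕ} {x₀ : E} (h0 : x₀ ∈ T N h k) {x : E} :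
    x ∈ T N h k ↔ x - x₀ ∈ Lam N (h * (N : E) ^ k) := by
  constructor
  · intro hx
    refine ⟨(RS E N).sub_mem hx.1 h0.1, ?_⟩
    have : (h * (N : E) ^ k)⁻¹ * (x - x₀) =
        (h * (N : E) ^ k)⁻¹ * (x - h) - (h * (N : E) ^ k)⁻¹ * (x₀ - h) := by ring
    rw [this]
    exact (AS E N).sub_mem hx.2 h0.2
  · intro hx
    refine ⟨?_, ?_⟩
    · have := (RS E N).add_mem hx.1 h0.1
      rwa [sub_add_cancel] at this
    · have : (h * (N : E) ^ k)⁻¹ * (x - h) =
        (h * (N : E) ^ k)⁻¹ * (x - x₀) + (h * (N : E) ^ k)⁻¹ * (x₀ - h) := by ring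
      rw [this]
      exact (AS E N).add_mem hx.2 h0.2

theorem exists_mem_T (N : ℕ) [NeZero N] {h : E} (hh : h ≠ 0) (k : ℕ) : ∃ x, x ∈ T N h k := by
  obtain ⟨x, hx, y, hy, hxy⟩ := exists_near (N := N) h k
  refine ⟨x, hx, ?_⟩
  have hN : (N : E) ^ k ≠ 0 := pow_ne_zero _ (Nat.cast_ne_zero.2 (NeZero.ne N))
  have : (h * (N : E) ^ k)⁻¹ * (x - h) = y := by
    rw [hxy]
    field_simp
  rwa [this]

end Cosets

section Cond

variable {F E : Type*} [Field F] [CharZero F] [Field E] [CharZero E] [Algebra F E]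
  [Algebra ℚ E] [FiniteDimensional ℚ E] [Algebra ℚ F] [FiniteDimensional F E]
  {N : ℕ} [NeZero N]
  (σ : E ≃ₐ[F] E) (hσσ : ∀ x, σ (σ x) = x)
  (hq : ∀ x : E, algebraMap F E (Algebra.norm F x) = x * σ x)

/-- the data and hypotheses of the `N`-adic form of the law. -/
structure Good (N : ℕ) (k m₀ : ℕ) (a b c d : F) (h : E) : Prop where
  a_mem : a ∈ RS F N
  b_mem : b ∈ RS F N
  c_mem : c ∈ RS F N
  d_mem : d ∈ RS F N
  det : a * d - b * c = 1
  d_ne : d ≠ 0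
  h_ne : h ≠ 0
  hb : b * Algebra.norm F h / d ∈ AS F N
  hc : ∃ s ∈ AS F N, c * d / Algebra.norm F h = (N : F) ^ (2 * k + 2 * m₀) * s

variable {k m₀ : ℕ} {a b c d : F} {h : E}

theorem Good.norm_ne (H : Good N k m₀ a b c d h) : Algebra.norm F h ≠ 0 :=
  Algebra.norm_ne_zero_iff.2 H.h_ne

theorem Good.bc_mem (H : Good N k m₀ a b c d h) : b * c ∈ AS F N := by
  obtain ⟨s, hs, hc⟩ := H.hc
  have h0 := H.norm_ne
  have h1 := H.d_ne
  have : b * c = (b * Algebra.norm F h / d) * (c * d / Algebra.norm F h) := by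
    field_simp
  rw [this, hc]
  exact (AS F N).mul_mem H.hb ((AS F N).mul_mem ((AS F N).pow_mem (natCast_mem _ N) _) hs)

theorem Good.ad_mem (H : Good N k m₀ a b c d h) : a * d ∈ AS F N := by
  have : a * d = 1 + b * c := by rw [← H.det]; ring
  rw [this]
  exact (AS F N).add_mem (AS F N).one_mem H.bc_mem

/-- the dual lattice condition. -/
def Dual (σ : E ≃ₐ[F] E) (L : Set E) : Set E :=
  {y | ∀ x ∈ L, ∃ n : ℤ, (n : ℚ) = Algebra.trace ℚ E (x * σ y)}

/-- `N ^ m₀ • (inverse different)` is integral. -/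
def DiffBound (E : Type*) [Field E] [Algebra ℚ E] (N m₀ : ℕ) : Prop :=
  ∀ y : E, (∀ x : E, IsIntegral ℤ x → ∃ n : ℤ, (n : ℚ) = Algebra.trace ℚ E (x * y)) →
      IsIntegral ℤ ((N : E) ^ m₀ * y)

local notation "ι" => algebraMap F E

theorem natN_ne (N : ℕ) [NeZero N] (k : ℕ) : (N : E) ^ k ≠ 0 :=
  pow_ne_zero _ (Nat.cast_ne_zero.2 (NeZero.ne N))

/-- (1) `d Λ₂ ⊆ Λ` (and the converse for elements of `d R'`). -/
theorem Good.cond1 (H : Good N k m₀ a b c d h) {x : E}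
    (hx : x ∈ Lam N (h * (N : E) ^ k / ι d)) : ι d * x ∈ Lam N (h * (N : E) ^ k) := by
  have hd : ι d ≠ 0 := (map_ne_zero _).2 H.d_ne
  refine ⟨(RS E N).mul_mem (map_mem_RS H.d_mem) hx.1, ?_⟩
  have : (h * (N : E) ^ k)⁻¹ * (ι d * x) = (h * (N : E) ^ k / ι d)⁻¹ * x := by
    rw [inv_div]; ring
  rw [this]
  exact hx.2

/-- (2) `a Λ ⊆ Λ₂`. -/
theorem Good.cond2 (H : Good N k m₀ a b c d h) {x : E}
    (hx : x ∈ Lam N (h * (N : E) ^ k)) : ι a * x ∈ Lam N (h * (N : E) ^ k / ι d) := by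
  refine ⟨(RS E N).mul_mem (map_mem_RS H.a_mem) hx.1, ?_⟩
  have : (h * (N : E) ^ k / ι d)⁻¹ * (ι a * x) = ι (a * d) * ((h * (N : E) ^ k)⁻¹ * x) := by
    rw [inv_div, map_mul]; ring
  rw [this]
  exact (AS E N).mul_mem (map_mem_AS H.ad_mem) hx.2

include hσσ hq

/-- bound for the dual of `Λ₂`. -/
theorem Good.dual (H : Good N k m₀ a b c d h) (hD : DiffBound E N m₀) {y : E}
    (hy : y ∈ Dual σ (Lam N (h * (N : E) ^ k / ι d))) :
    y ∈ RS E N ∧ (N : E) ^ m₀ * (h * (N : E) ^ k / ι d) * σ y ∈ AS E N := by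
  have hd : ι d ≠ 0 := (map_ne_zero _).2 H.d_ne
  have hg : h * (N : E) ^ k / ι d ≠ 0 := div_ne_zero (mul_ne_zero H.h_ne (natN_ne N k)) hd
  obtain ⟨h1, h2⟩ := dual_bound hD hg hy
  refine ⟨?_, h2⟩
  have := conj_mem_RS σ h1
  rwa [hσσ] at this

/-- (3) `c Λ₂^# ⊆ Λ`. -/
theorem Good.cond3 (H : Good N k m₀ a b c d h) (hD : DiffBound E N m₀) {y : E}
    (hy : y ∈ Dual σ (Lam N (h * (N : E) ^ k / ι d))) : ι c * y ∈ Lam N (h * (N : E) ^ k) := by
  obtain ⟨h1, h2⟩ := H.dual σ hσσ hq hD hy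
  obtain ⟨s, hs, hc⟩ := H.hc
  have hd : ι d ≠ 0 := (map_ne_zero _).2 H.d_ne
  have hh := H.h_ne
  have hσh : σ h ≠ 0 := (map_ne_zero σ).2 hh
  have hN := natN_ne (E := E) N k
  have hN0 := natN_ne (E := E) N m₀
  refine ⟨(RS E N).mul_mem (map_mem_RS H.c_mem) h1, ?_⟩
  have key : (h * (N : E) ^ k)⁻¹ * (ι c * y) =
      σ (ι ((N : F) ^ m₀ * s) * ((N : E) ^ m₀ * (h * (N : E) ^ k / ι d) * σ y)) := by
    have hc' : ι c * ι d = (N : E) ^ (2 * k + 2 * m₀) * ι s * (h * σ h) := by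
      have h3 := congrArg (algebraMap F E) hc
      rw [map_div₀, hq, map_mul, map_mul, map_pow, map_natCast] at h3
      rw [div_eq_iff (mul_ne_zero hh hσh)] at h3
      exact h3
    simp only [map_mul, map_div₀, map_pow, map_natCast, AlgEquiv.commutes, hσσ]
    field_simp
    have h4 : ι c * ι d * y = (N : E) ^ (2 * k + 2 * m₀) * ι s * (h * σ h) * y := by rw [hc']
    have e1 : (N : E) ^ (2 * k + 2 * m₀) = (N : E) ^ k * (N : E) ^ k * ((N : E) ^ m₀ * (N : E) ^ m₀) := by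
      ring
    rw [e1] at h4
    linear_combination h4
  rw [key]
  exact conj_mem_AS σ ((AS E N).mul_mem (map_mem_AS ((AS F N).mul_mem
    ((AS F N).pow_mem (natCast_mem _ N) _) hs)) h2)

/-- (4) `b B(Λ, Λ₂)` is integral (in `E`, before taking the trace). -/
theorem Good.cond4 (H : Good N k m₀ a b c d h) {x y : E}
    (hx : x ∈ Lam N (h * (N : E) ^ k)) (hy : y ∈ Lam N (h * (N : E) ^ k / ι d)) :
    IsIntegral ℤ (ι b * (x * σ y)) := by
  have hd : ι d ≠ 0 := (map_ne_zero _).2 H.d_ne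
  have hh := H.h_ne
  have hσh : σ h ≠ 0 := (map_ne_zero σ).2 hh
  have hN := natN_ne (E := E) N k
  refine isIntegral_of_mem (N := N)
    ((RS E N).mul_mem (map_mem_RS H.b_mem) ((RS E N).mul_mem hx.1 (conj_mem_RS σ hy.1))) ?_
  have key : ι b * (x * σ y) = ι (b * Algebra.norm F h / d) * ((N : E) ^ k * (N : E) ^ k) *
      (((h * (N : E) ^ k)⁻¹ * x) * σ ((h * (N : E) ^ k / ι d)⁻¹ * y)) := by
    simp only [map_mul, map_div₀, map_pow, map_natCast, AlgEquiv.commutes, hq, map_inv₀]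
    field_simp
  rw [key]
  exact (AS E N).mul_mem ((AS E N).mul_mem (map_mem_AS H.hb) ((AS E N).mul_mem
    ((AS E N).pow_mem (natCast_mem _ N) _) ((AS E N).pow_mem (natCast_mem _ N) _)))
    ((AS E N).mul_mem hx.2 (conj_mem_AS σ hy.2))

/-- (5) `b d q(Λ₂)` is integral. -/
theorem Good.cond5 (H : Good N k m₀ a b c d h) {x : E}
    (hx : x ∈ Lam N (h * (N : E) ^ k / ι d)) : IsIntegral ℤ (b * d * Algebra.norm F x) := by
  refine isIntegral_of_map (E := E) ?_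
  have h1 := H.cond4 σ hσσ hq (H.cond1 hx) hx
  have : ι (b * d * Algebra.norm F x) = ι b * (ι d * x * σ x) := by
    rw [map_mul, map_mul, hq]; ring
  rw [this]
  exact h1

/-- (6) `a c q(Λ₂^#)` is integral. -/
theorem Good.cond6 (H : Good N k m₀ a b c d h) (hD : DiffBound E N m₀) {y : E}
    (hy : y ∈ Dual σ (Lam N (h * (N : E) ^ k / ι d))) : IsIntegral ℤ (a * c * Algebra.norm F y) := by
  obtain ⟨h1, h2⟩ := H.dual σ hσσ hq hD hy
  obtain ⟨s, hs, hc⟩ := H.hc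
  have hd : ι d ≠ 0 := (map_ne_zero _).2 H.d_ne
  have hh := H.h_ne
  have hσh : σ h ≠ 0 := (map_ne_zero σ).2 hh
  have hN := natN_ne (E := E) N k
  have hN0 := natN_ne (E := E) N m₀
  refine isIntegral_of_map (E := E) (isIntegral_of_mem (N := N) ?_ ?_)
  · rw [map_mul, map_mul, hq]
    exact (RS E N).mul_mem ((RS E N).mul_mem (map_mem_RS H.a_mem) (map_mem_RS H.c_mem))
      ((RS E N).mul_mem h1 (conj_mem_RS σ h1))
  · have key : ι (a * c * Algebra.norm F y) = ι (a * d) * ι s *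
        (((N : E) ^ m₀ * (h * (N : E) ^ k / ι d) * σ y) *
          σ ((N : E) ^ m₀ * (h * (N : E) ^ k / ι d) * σ y)) := by
      have hc' : ι c * ι d = (N : E) ^ (2 * k + 2 * m₀) * ι s * (h * σ h) := by
        have h3 := congrArg (algebraMap F E) hc
        rw [map_div₀, hq, map_mul, map_mul, map_pow, map_natCast] at h3
        rw [div_eq_iff (mul_ne_zero hh hσh)] at h3
        exact h3
      simp only [map_mul, map_div₀, map_pow, map_natCast, AlgEquiv.commutes, hσσ, hq]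
      field_simp
      have e1 : (N : E) ^ (2 * k + 2 * m₀) =
          ((N : E) ^ k * (N : E) ^ m₀) ^ 2 := by ring
      rw [e1] at hc'
      linear_combination (ι a * y * σ y) * hc'
    rw [key]
    exact (AS E N).mul_mem ((AS E N).mul_mem (map_mem_AS H.ad_mem) (map_mem_AS hs))
      ((AS E N).mul_mem h2 (conj_mem_AS σ h2))

/-- for `h' ∈ T (h / d)`, `h' = (h / d) (1 + N ^ k w)`. -/
theorem eq_of_mem_T {g h' : E} (hg : g ≠ 0) (h1 : h' ∈ T N g k) :
    ∃ w ∈ AS E N, h' = g * w := by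
  have hN := natN_ne (E := E) N k
  refine ⟨1 + (N : E) ^ k * ((g * (N : E) ^ k)⁻¹ * (h' - g)),
    (AS E N).add_mem (AS E N).one_mem ((AS E N).mul_mem
      ((AS E N).pow_mem (natCast_mem _ N) _) h1.2), ?_⟩
  field_simp
  ring

/-- (8) `b B(h', Λ)` is integral. -/
theorem Good.cond8 (H : Good N k m₀ a b c d h) {h' x : E} (h1 : h' ∈ T N (h / ι d) k)
    (hx : x ∈ Lam N (h * (N : E) ^ k)) : IsIntegral ℤ (ι b * (h' * σ x)) := by
  have hd : ι d ≠ 0 := (map_ne_zero _).2 H.d_ne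
  have hh := H.h_ne
  have hσh : σ h ≠ 0 := (map_ne_zero σ).2 hh
  have hN := natN_ne (E := E) N k
  obtain ⟨w, hw, rfl⟩ := eq_of_mem_T (E := E) σ hσσ hq (div_ne_zero hh hd) h1
  refine isIntegral_of_mem (N := N)
    ((RS E N).mul_mem (map_mem_RS H.b_mem) ((RS E N).mul_mem h1.1 (conj_mem_RS σ hx.1))) ?_
  have key : ι b * (h / ι d * w * σ x) = ι (b * Algebra.norm F h / d) * (N : E) ^ k *
      (w * σ ((h * (N : E) ^ k)⁻¹ * x)) := by
    simp only [map_mul, map_div₀, map_pow, map_natCast, hq, map_inv₀]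
    field_simp
  rw [key]
  exact (AS E N).mul_mem ((AS E N).mul_mem (map_mem_AS H.hb)
    ((AS E N).pow_mem (natCast_mem _ N) _)) ((AS E N).mul_mem hw (conj_mem_AS σ hx.2))

/-- (7) `b d q(h')` is integral. -/
theorem Good.cond7 (H : Good N k m₀ a b c d h) {h' : E} (h1 : h' ∈ T N (h / ι d) k) :
    IsIntegral ℤ (b * d * Algebra.norm F h') := by
  have hd : ι d ≠ 0 := (map_ne_zero _).2 H.d_ne
  have hh := H.h_ne
  have hσh : σ h ≠ 0 := (map_ne_zero σ).2 hh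
  obtain ⟨w, hw, rfl⟩ := eq_of_mem_T (E := E) σ hσσ hq (div_ne_zero hh hd) h1
  refine isIntegral_of_map (E := E) (isIntegral_of_mem (N := N) ?_ ?_)
  · rw [map_mul, map_mul, hq]
    exact (RS E N).mul_mem ((RS E N).mul_mem (map_mem_RS H.b_mem) (map_mem_RS H.d_mem))
      ((RS E N).mul_mem h1.1 (conj_mem_RS σ h1.1))
  · have key : ι (b * d * Algebra.norm F (h / ι d * w)) =
        ι (b * Algebra.norm F h / d) * (w * σ w) := by
      simp only [map_mul, map_div₀, hq, AlgEquiv.commutes]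
      field_simp
    rw [key]
    exact (AS E N).mul_mem (map_mem_AS H.hb) ((AS E N).mul_mem hw (conj_mem_AS σ hw))

omit hσσ hq in
/-- `d h' ∈ T h`. -/
theorem Good.mem_T_mul (H : Good N k m₀ a b c d h) {h' : E} (h1 : h' ∈ T N (h / ι d) k) :
    ι d * h' ∈ T N h k := by
  have hd : ι d ≠ 0 := (map_ne_zero _).2 H.d_ne
  have hh := H.h_ne
  have hN := natN_ne (E := E) N k
  refine ⟨(RS E N).mul_mem (map_mem_RS H.d_mem) h1.1, ?_⟩
  have : (h * (N : E) ^ k)⁻¹ * (ι d * h' - h) = (h / ι d * (N : E) ^ k)⁻¹ * (h' - h / ι d) := by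
    field_simp
  rw [this]
  exact h1.2

end Cond

end Fermat.Agent.LT.SAd
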