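import Fermat.Agent.LT.Theta11.SAdic
import Fermat.Agent.LT.Ray

/-!
# `RS`, `AS` and the ideal `dId N d` in terms of places

* `mem_RS_iff`, `mem_AS_iff`: valuations;
* `dId_eq_prod`: `dId N d = ∏_{v ∤ N} v ^ ord v d`;
* `absNorm_dId`, `mulFun_dId`: values of multiplicative functions of ideals.
-/

set_option autoImplicit false
set_option linter.unusedSectionVars false

namespace Fermat.Agent.LT.SAd

open NumberField IsDedekindDomain WithZero
open Fermat.Agent.CFT.SUnits Fermat.Agent.CFT.Global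

section Places

variable {F : Type*} [Field F] [NumberField F] {N : ℕ} [NeZero N]

theorem valuation_le_one_of_isIntegral (v : HeightOneSpectrum (𝓞 F)) {x : F} (hx : IsIntegral ℤ x) :
    v.valuation F x ≤ 1 := v.valuation_le_one (⟨x, hx⟩ : 𝓞 F)

theorem isIntegral_of_valuation {x : F} (h : ∀ v : HeightOneSpectrum (𝓞 F), v.valuation F x ≤ 1) :
    IsIntegral ℤ x := by
  obtain ⟨y, rfl⟩ := HeightOneSpectrum.mem_integers_of_valuation_le_one F x h
  exact y.2

theorem valuation_natCast_eq_one {v : HeightOneSpectrum (𝓞 F)} {n : ℕ}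
    (h : (n : 𝓞 F) ∉ v.asIdeal) : v.valuation F (n : F) = 1 := by
  have h1 : v.valuation F (algebraMap (𝓞 F) F (n : 𝓞 F)) = 1 := by
    apply le_antisymm (v.valuation_le_one _)
    by_contra hlt
    rw [not_le, v.valuation_lt_one_iff_mem] at hlt
    exact h hlt
  rwa [map_natCast] at h1

theorem natCast_notMem_of_coprime {v : HeightOneSpectrum (𝓞 F)} {n : ℕ} (hc : n.Coprime N)
    (h : (N : 𝓞 F) ∈ v.asIdeal) : (n : 𝓞 F) ∉ v.asIdeal := by
  intro hn
  obtain ⟨u, w, huw⟩ : IsCoprime (n : ℤ) (N : ℤ) := Nat.isCoprime_iff_coprime.2 hc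
  have : (1 : 𝓞 F) ∈ v.asIdeal := by
    have h1 : (1 : 𝓞 F) = (u : 𝓞 F) * (n : 𝓞 F) + (w : 𝓞 F) * (N : 𝓞 F) := by
      have := congrArg (fun z : ℤ => (z : 𝓞 F)) huw
      push_cast at this
      exact this.symm
    rw [h1]
    exact v.asIdeal.add_mem (v.asIdeal.mul_mem_left _ hn) (v.asIdeal.mul_mem_left _ h)
  exact v.isPrime.ne_top ((Ideal.eq_top_iff_one _).2 this)

theorem mem_RS_iff {x : F} : x ∈ RS F N ↔
    ∀ v : HeightOneSpectrum (𝓞 F), (N : 𝓞 F) ∉ v.asIdeal → v.valuation F x ≤ 1 := by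
  constructor
  · rintro ⟨j, hj⟩ v hv
    have h1 := valuation_le_one_of_isIntegral v hj
    rwa [map_mul, map_pow, valuation_natCast_eq_one hv, one_pow, one_mul] at h1
  · intro h
    obtain ⟨j, n, hn, hc, hi⟩ := exists_split N x
    refine ⟨j, isIntegral_of_valuation fun v => ?_⟩
    by_cases hv : (N : 𝓞 F) ∈ v.asIdeal
    · have h1 := valuation_le_one_of_isIntegral v hi
      rw [← mul_assoc, mul_comm ((N : F) ^ j), mul_assoc, map_mul,
        valuation_natCast_eq_one (natCast_notMem_of_coprime hc hv), one_mul] at h1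
      exact h1
    · rw [map_mul, map_pow, valuation_natCast_eq_one hv, one_pow, one_mul]
      exact h v hv

theorem mem_AS_iff {x : F} : x ∈ AS F N ↔
    ∀ v : HeightOneSpectrum (𝓞 F), (N : 𝓞 F) ∈ v.asIdeal → v.valuation F x ≤ 1 := by
  constructor
  · rintro ⟨n, hn, hc, hi⟩ v hv
    have h1 := valuation_le_one_of_isIntegral v hi
    rwa [map_mul, valuation_natCast_eq_one (natCast_notMem_of_coprime hc hv), one_mul] at h1
  · intro h
    obtain ⟨j, n, hn, hc, hi⟩ := exists_split N x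
    refine ⟨n, hn, hc, isIntegral_of_valuation fun v => ?_⟩
    by_cases hv : (N : 𝓞 F) ∈ v.asIdeal
    · rw [map_mul, valuation_natCast_eq_one (natCast_notMem_of_coprime hc hv), one_mul]
      exact h v hv
    · have h1 := valuation_le_one_of_isIntegral v hi
      rwa [map_mul, map_pow, valuation_natCast_eq_one hv, one_pow, one_mul] at h1

theorem ord_nonneg_of_mem_RS {d : Fˣ} (hd : (d : F) ∈ RS F N) {v : HeightOneSpectrum (𝓞 F)}
    (hv : (N : 𝓞 F) ∉ v.asIdeal) : 0 ≤ ord v d := (ord_nonneg_iff F v d).2 (mem_RS_iff.1 hd v hv)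

open Classical in
/-- the factorization of `dId N d`. -/
theorem dId_eq_prod {d : Fˣ} (hd : (d : F) ∈ RS F N) (T : Finset (HeightOneSpectrum (𝓞 F)))
    (hT : ∀ v ∈ T, (N : 𝓞 F) ∉ v.asIdeal)
    (hT' : ∀ v : HeightOneSpectrum (𝓞 F), (N : 𝓞 F) ∉ v.asIdeal → ord v d ≠ 0 → v ∈ T) :
    dId N (d : F) = ∏ v ∈ T, v.asIdeal ^ (ord v d).toNat := by
  have h0 := IsDedekindDomain.HeightOneSpectrum.inf_pow_eq_prod T
    (fun v => (ord v d).toNat) (fun v : HeightOneSpectrum (𝓞 F) => v) (by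
      intro i _ j _ hij
      exact hij)
  rw [← h0]
  ext t
  rw [mem_dId, mem_RS_iff, Submodule.mem_finsetInf]
  have hval : ∀ v : HeightOneSpectrum (𝓞 F), v.valuation F ((d : F)⁻¹ * algebraMap (𝓞 F) F t) ≤ 1 ↔
      v.valuation F (algebraMap (𝓞 F) F t) ≤ exp (-ord v d) := by
    intro v
    have h1 : v.valuation F (d : F) ≠ 0 := (Valuation.ne_zero_iff _).2 d.ne_zero
    rw [map_mul, map_inv₀, ← valuation_eq_exp_neg_ord]
    rw [inv_mul_le_iff₀ (zero_lt_iff.2 h1), mul_one]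
  constructor
  · intro h v hv
    have h1 := (hval v).1 (h v (hT v hv))
    rw [← HeightOneSpectrum.intValuation_le_pow_iff_mem,
      Int.toNat_of_nonneg (ord_nonneg_of_mem_RS hd (hT v hv))]
    rwa [HeightOneSpectrum.valuation_of_algebraMap] at h1
  · intro h v hv
    rw [hval]
    by_cases h1 : ord v d = 0
    · rw [h1, neg_zero, exp_zero]
      exact v.valuation_le_one _
    · have h2 := h v (hT' v hv h1)
      rw [← HeightOneSpectrum.intValuation_le_pow_iff_mem,
        Int.toNat_of_nonneg (ord_nonneg_of_mem_RS hd hv)] at h2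
      rwa [HeightOneSpectrum.valuation_of_algebraMap]

/-- `N ∉ v` for all `v` dividing `dId N d`. -/
theorem natCast_notMem_of_dId_le {d : F} {v : HeightOneSpectrum (𝓞 F)} (h : dId N d ≤ v.asIdeal) :
    (N : 𝓞 F) ∉ v.asIdeal := by
  intro hN
  obtain ⟨n, -, hc, hn⟩ := exists_natCast_mem_dId N d
  exact natCast_notMem_of_coprime hc hN (h hn)

/-- a multiplicative function of ideals (values in a commutative group written additively through
`f`), evaluated at `dId N d`. -/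
theorem mulFun_dId {M : Type*} [CommMonoid M] (φ : Ideal (𝓞 F) → M) (h1 : φ 1 = 1)
    (hmul : ∀ I J : Ideal (𝓞 F), I ≠ ⊥ → J ≠ ⊥ → (∀ v : HeightOneSpectrum (𝓞 F),
      (N : 𝓞 F) ∈ v.asIdeal → ¬ I ≤ v.asIdeal ∧ ¬ J ≤ v.asIdeal) → φ (I * J) = φ I * φ J)
    {A : Type*} [AddCommGroup A] (χ : Multiplicative A →* M) (f : HeightOneSpectrum (𝓞 F) → A)
    (hf : ∀ v : HeightOneSpectrum (𝓞 F), (N : 𝓞 F) ∉ v.asIdeal →
      φ v.asIdeal = χ (Multiplicative.ofAdd (f v)))
    (S : Finset (HeightOneSpectrum (𝓞 F))) (hS : ∀ v, v ∈ S ↔ (N : 𝓞 F) ∈ v.asIdeal)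
    {d : Fˣ} (hd : (d : F) ∈ RS F N) : φ (dId N (d : F)) = χ (rayVal S f d) := by
  classical
  let T : Finset (HeightOneSpectrum (𝓞 F)) := (finite_ord_ne_zero (R := 𝓞 F) F d).toFinset.filter fun v =>
    (N : 𝓞 F) ∉ v.asIdeal
  have hT : ∀ v ∈ T, (N : 𝓞 F) ∉ v.asIdeal := fun v hv => (Finset.mem_filter.1 hv).2
  have hT' : ∀ v : HeightOneSpectrum (𝓞 F), (N : 𝓞 F) ∉ v.asIdeal → ord v d ≠ 0 → v ∈ T := by
    intro v h1 h2
    exact Finset.mem_filter.2 ⟨(Set.Finite.mem_toFinset _).2 h2, h1⟩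
  have hnle : ∀ (v w : HeightOneSpectrum (𝓞 F)), (N : 𝓞 F) ∉ v.asIdeal → (N : 𝓞 F) ∈ w.asIdeal →
      ∀ n : ℕ, ¬ v.asIdeal ^ n ≤ w.asIdeal := by
    intro v w hv hw n hle
    have h2 : v.asIdeal ≤ w.asIdeal := w.isPrime.le_of_pow_le hle
    have h3 : v.asIdeal = w.asIdeal := (v.isPrime.isMaximal v.ne_bot).eq_of_le w.isPrime.ne_top h2
    exact hv (h3 ▸ hw)
  have hpow : ∀ v : HeightOneSpectrum (𝓞 F), (N : 𝓞 F) ∉ v.asIdeal → ∀ n : ℕ,
      φ (v.asIdeal ^ n) = χ (Multiplicative.ofAdd (n • f v)) := by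
    intro v hv n
    induction n with
    | zero => rw [pow_zero, h1, zero_smul, ofAdd_zero, map_one]
    | succ n ih =>
      rw [pow_succ, hmul _ _ (pow_ne_zero _ v.ne_bot) v.ne_bot, ih, hf v hv, ← map_mul, ← ofAdd_add,
        succ_nsmul]
      intro w hw
      exact ⟨hnle v w hv hw n, by simpa using hnle v w hv hw 1⟩
  have hprod : ∀ T' : Finset (HeightOneSpectrum (𝓞 F)), (∀ v ∈ T', (N : 𝓞 F) ∉ v.asIdeal) →
      φ (∏ v ∈ T', v.asIdeal ^ (ord v d).toNat) =
        χ (Multiplicative.ofAdd (∑ v ∈ T', (ord v d).toNat • f v)) := by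
    intro T'
    induction T' using Finset.induction_on with
    | empty => intro _; rw [Finset.prod_empty, h1, Finset.sum_empty, ofAdd_zero, map_one]
    | insert a s ha ih =>
      intro h2
      rw [Finset.prod_insert ha, Finset.sum_insert ha, hmul _ _ (pow_ne_zero _ a.ne_bot)
        (Finset.prod_ne_zero_iff.2 fun v _ => pow_ne_zero _ v.ne_bot),
        ih (fun v hv => h2 v (Finset.mem_insert_of_mem hv)),
        hpow a (h2 a (Finset.mem_insert_self _ _)), ← map_mul, ← ofAdd_add]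
      intro w hw
      refine ⟨hnle a w (h2 a (Finset.mem_insert_self _ _)) hw _, fun hle => ?_⟩
      obtain ⟨v, hv, hvw⟩ := (w.isPrime.prod_le).1 hle
      exact hnle v w (h2 v (Finset.mem_insert_of_mem hv)) hw _ hvw
  rw [dId_eq_prod hd T hT hT', hprod T hT]
  congr 1
  have h2 := toAdd_rayVal_eq_sum S T f d (fun v hv hvS => by
    by_contra hne
    apply hv
    apply hT' v (fun h => hvS ((hS v).2 h))
    intro h0
    exact hne (by rw [h0, zero_smul]))
  apply Multiplicative.toAdd.injective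
  rw [h2, toAdd_ofAdd]
  refine Finset.sum_congr rfl fun v hv => ?_
  rw [if_neg (fun h => hT v hv ((hS v).1 h))]
  conv_rhs => rw [← Int.toNat_of_nonneg (ord_nonneg_of_mem_RS hd (hT v hv))]
  rw [natCast_zsmul]

/-- `absNorm (dId N d)` as the exponential of `rayVal`. -/
theorem absNorm_dId (S : Finset (HeightOneSpectrum (𝓞 F)))
    (hS : ∀ v, v ∈ S ↔ (N : 𝓞 F) ∈ v.asIdeal) {d : Fˣ} (hd : (d : F) ∈ RS F N) :
    ((Ideal.absNorm (dId N (d : F)) : ℕ) : ℝ) =
      Real.exp (rayVal S (fun v => Real.log (Ideal.absNorm v.asIdeal)) d).toAdd := by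
  let χ : Multiplicative ℝ →* ℝ :=
    { toFun := fun x => Real.exp x.toAdd
      map_one' := by simp
      map_mul' := fun x y => by rw [toAdd_mul, Real.exp_add] }
  have h := mulFun_dId (N := N) (fun I : Ideal (𝓞 F) => ((Ideal.absNorm I : ℕ) : ℝ))
    (by rw [Ideal.one_eq_top, Ideal.absNorm_top]; simp)
    (fun I J _ _ _ => by rw [map_mul]; push_cast; rfl) χ
    (fun v => Real.log (Ideal.absNorm v.asIdeal))
    (fun v _ => by
      have : 0 < ((Ideal.absNorm v.asIdeal : ℕ) : ℝ) := by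
        have h1 : Ideal.absNorm v.asIdeal ≠ 0 := by
          rw [Ne, Ideal.absNorm_eq_zero_iff]
          exact v.ne_bot
        exact_mod_cast Nat.pos_of_ne_zero h1
      exact (Real.exp_log this).symm) S hS hd
  exact h

end Places

end Fermat.Agent.LT.SAd
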