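import Fermat.Agent.LT.Theta11.SCond

/-!
# `DiffBound` from the discriminant
-/

set_option autoImplicit false

namespace Fermat.Agent.LT.SAd

open NumberField

theorem diffBound_of_discr_dvd {E : Type*} [Field E] [NumberField E] {N : ℕ}
    (hN : NumberField.discr E ∣ (N : ℤ)) : DiffBound E N 1 := by
  classical
  intro y hy
  have h1 : y ∈ Submodule.traceDual ℤ ℚ (1 : Submodule (𝓞 E) E) := by
    rw [Submodule.mem_traceDual]
    intro a ha
    obtain ⟨a, rfl⟩ := Submodule.mem_one.1 ha
    obtain ⟨n, hn⟩ := hy _ (show IsIntegral ℤ (algebraMap (𝓞 E) E a) from a.2)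
    refine ⟨n, ?_⟩
    rw [Algebra.traceForm_apply, mul_comm, ← hn]
    simp
  have h2 := isIntegral_discr_mul_of_mem_traceDual (A := ℤ) (K := ℚ) (B := 𝓞 E)
    (1 : Submodule (𝓞 E) E) (b := integralBasis E)
    (fun i => by
      rw [integralBasis_apply]
      exact (RingOfIntegers.basis E i).2)
    (a := 1) (Submodule.mem_one.2 ⟨1, map_one _⟩) h1
  obtain ⟨c, hc⟩ := hN
  have h3 : (N : E) ^ 1 * y = (c : E) * (Algebra.discr ℚ (integralBasis E) • (1 : E) * y) := by
    rw [← coe_discr, pow_one]
    have h4 : (N : E) = ((NumberField.discr E : ℤ) : E) * (c : E) := by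
      have := congrArg (fun z : ℤ => (z : E)) hc
      push_cast at this
      exact this
    rw [h4, Algebra.smul_def]
    simp only [eq_ratCast, mul_one]
    push_cast
    ring
  rw [h3]
  have hc' : IsIntegral ℤ (c : E) := by
    simpa using (isIntegral_algebraMap (x := c) : IsIntegral ℤ (algebraMap ℤ E c))
  exact hc'.mul h2

end Fermat.Agent.LT.SAd
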