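import Fermat.Agent.LT.Theta11.SNorm
import Fermat.Agent.LT.Th.LawNF
import Fermat.Agent.LT.Th.GaussNF
import Fermat.Agent.LT.B11.Norms
import Fermat.Agent.LT.Torus.Sum

/-!
# The transformation law of the theta series over `T N h k`

`E / F` quadratic, `F` totally complex. For `H : Good N k m₀ a b c d h` and `γ = (a b; c d)`:
`∑_{x ∈ T(h, k)} K (γ P, t; x) = (nR d / nI d ^ 2) * η(d) * ∑_{x ∈ T(h / d, k)} K (P, t; x)`.
-/

set_option autoImplicit false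
set_option linter.unusedSectionVars false

noncomputable section

open Complex Module NumberField Matrix IsDedekindDomain

namespace Fermat.Agent.LT.SAd

open Fermat.Agent.LT.Th
open Fermat.Agent.CFT.SUnits Fermat.Agent.CFT.Global
open Fermat.Agent.CFT.Places (conj)

variable {F E : Type*} [Field F] [NumberField F] [Field E] [NumberField E] [Algebra F E]
  {N : ℕ} [NeZero N]

local notation "ι" => algebraMap F E

theorem ech_eq_eF (r : F) : ech r = eF F r := by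
  rw [eF_eq_cexp]
  rfl

/-- the lattice `Lam N g` as a `ℤ`-module. -/
def LamZ (N : ℕ) (g : E) : Submodule ℤ E := (Lam N g).restrictScalars ℤ

theorem mem_LamZ {g x : E} : x ∈ LamZ N g ↔ x ∈ Lam N g := Iff.rfl

theorem isLat_LamZ {g : E} (hg : g ≠ 0) : IsLat (LamZ N g) where
  inner := by
    obtain ⟨j, hj⟩ := exists_pow_mul_mem_Lam N g
    refine ⟨N ^ j, pow_ne_zero _ (NeZero.ne N), fun x hx => ?_⟩
    have := hj x hx
    rw [mem_LamZ]
    push_cast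
    exact this
  outer := by
    obtain ⟨j, hj⟩ := exists_isIntegral_of_mem_Lam N hg
    refine ⟨N ^ j, pow_ne_zero _ (NeZero.ne N), fun x hx => ?_⟩
    have := hj x hx
    push_cast
    exact this

variable {σ : E ≃ₐ[F] E} {k m₀ m₁ : ℕ} {a b c d : F} {h : E}

/-- the conditions of the law. -/
theorem Good.cond (H : Good N k m₀ a b c d h) (hσσ : ∀ x, σ (σ x) = x)
    (hq : ∀ x : E, ι (Algebra.norm F x) = x * σ x) (hD : DiffBound E N m₀) {h' : E}
    (h1 : h' ∈ T N (h / ι d) k) :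
    Cond σ a b c d h' (LamZ N (h * (N : E) ^ k)) (LamZ N (h * (N : E) ^ k / ι d)) where
  det := H.det
  d0 := H.d_ne
  c1 := fun _ hx => H.cond1 hx
  c2 := fun _ hx => H.cond2 hx
  c3 := fun _ hy => H.cond3 σ hσσ hq hD hy
  c4 := fun _ hx _ hy => H.cond4 σ hσσ hq hx hy
  c5 := fun _ hx => H.cond5 σ hσσ hq hx
  c6 := fun _ hy => H.cond6 σ hσσ hq hD hy
  c7 := H.cond7 σ hσσ hq h1
  c8 := fun _ hx => H.cond8 σ hσσ hq h1 hx

/-- `T N h k` is a coset of the lattice. -/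
def cosetEquivZ {h x₀ : E} {k : ℕ} (h0 : x₀ ∈ T N h k) : LamZ N (h * (N : E) ^ k) ≃ T N h k where
  toFun x := ⟨x₀ + x, (mem_T_iff_sub h0).2 (by rw [add_sub_cancel_left]; exact x.2)⟩
  invFun x := ⟨x - x₀, (mem_T_iff_sub h0).1 x.2⟩
  left_inv x := Subtype.ext (by simp)
  right_inv x := Subtype.ext (by simp)

variable [IsTotallyComplex F] (hE : finrank F E = 2) (hσ : σ ≠ 1)
  {φ : InfinitePlace F → E →+* ℂ} (hφ : ∀ w x, φ w (algebraMap F E x) = w.embedding x)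
  {t : InfinitePlace F → ℝ}

include hE hσ hφ in
/-- **The law**, with the constant in terms of the ideal `D = dId N d`. -/
theorem Good.law_nf [IsGalois F E] (H : Good N k m₀ a b c d h) (hD : DiffBound E N m₀)
    (hDF : DiffBound F N m₁)
    (hN : ∀ w : HeightOneSpectrum (𝓞 E), (N : 𝓞 E) ∉ w.asIdeal →
      ∃ x : 𝓞 E, x - NF.cI σ x ∉ w.asIdeal) (ht : ∀ w, 0 < t w)
    {γ : GL (Fin 2) F} (hγ : (γ : Matrix (Fin 2) (Fin 2) F) = !![a, b; c, d]) (P : Xi F) :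
    Summable (fun x : T N h k => thK φ σ t (γ • P) x) ∧
    ∑' x : T N h k, thK φ σ t (γ • P) x =
      ((nuF d : ℝ) : ℂ)⁻¹ * ((Ideal.absNorm (dId N d) : ℂ) * QD.chi (𝓞 E) (dId N d)) *
        ∑' x : T N (h / ι d) k, thK φ σ t P x := by
  classical
  have hσσ : ∀ x, σ (σ x) = x := quad_invol hE hσ
  have hq : ∀ x : E, ι (Algebra.norm F x) = x * σ x := quad_norm hE hσ
  have hd0 : ι d ≠ 0 := (map_ne_zero _).2 H.d_ne
  have hne : (dId N d).map (algebraMap (𝓞 F) (𝓞 E)) ≠ ⊥ := by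
    intro h0
    obtain ⟨n, hn, -, h1⟩ := exists_natCast_mem_dId N d
    have h2 := Ideal.mem_map_of_mem (algebraMap (𝓞 F) (𝓞 E)) h1
    rw [h0, Ideal.mem_bot, map_natCast] at h2
    exact hn (by exact_mod_cast h2)
  have : Finite (𝓞 E ⧸ (dId N d).map (algebraMap (𝓞 F) (𝓞 E))) :=
    Ideal.finiteQuotientOfFreeOfNeBot _ hne
  have : Fintype (𝓞 E ⧸ (dId N d).map (algebraMap (𝓞 F) (𝓞 E))) := Fintype.ofFinite _
  obtain ⟨h', h1⟩ := exists_mem_T N (div_ne_zero H.h_ne hd0) k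
  obtain ⟨J, hJ, hJ'⟩ := exists_J N (h * (N : E) ^ k) (b / d)
  have hg : h * (N : E) ^ k / ι d ≠ 0 :=
    div_ne_zero (mul_ne_zero H.h_ne (natN_ne N k)) hd0
  have hr := reps H.d_ne H.d_mem hJ
  have hlaw := Th.law hE hσ hφ ht (isLat_LamZ hg) (H.cond hσσ hq hD h1)
    (r := fun i : 𝓞 E ⧸ (dId N d).map (algebraMap (𝓞 F) (𝓞 E)) =>
        (N : E) ^ J * algebraMap (𝓞 E) E (Quotient.out i)) hr.mem
    (fun x hx => by
      obtain ⟨i, m, hm, hi⟩ := hr.ex x hx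
      exact ⟨i, m, hm, by rw [hi, Algebra.smul_def]⟩)
    (fun i j => by
      rintro ⟨m, hm, hij⟩
      exact hr.uniq i j ⟨m, hm, by rw [hij, Algebra.smul_def]⟩) hγ P
  have hgauss : ∑ i : 𝓞 E ⧸ (dId N d).map (algebraMap (𝓞 F) (𝓞 E)),
      eF F (b * Algebra.norm F ((N : E) ^ J * algebraMap (𝓞 E) E (Quotient.out i)) / d) =
      (Ideal.absNorm (dId N d) : ℂ) * QD.chi (𝓞 E) (dId N d) := by
    have hDN : ∃ n : ℕ, n.Coprime N ∧ (n : 𝓞 F) ∈ dId N d := by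
      obtain ⟨n, -, h2, h3⟩ := exists_natCast_mem_dId N d
      exact ⟨n, h2, h3⟩
    rw [← NF.gauss_eq_NF hE hσ hN (dId_ne_bot N d) hDN
      (cond_echI hDF H.a_mem H.b_mem H.c_mem H.d_ne H.det hJ')]
    unfold gauss qs
    refine Finset.sum_congr rfl fun i _ => ?_
    change _ = echI _ ((NF.qd hE hσ).nm (Quotient.out i))
    rw [echI_apply, NF.qd_nm, ech_eq_eF]
    congr 1
    have hNN : Algebra.norm F ((N : E) ^ J) = (N : F) ^ (2 * J) := by
      apply (algebraMap F E).injective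
      rw [hq, map_pow, map_natCast, map_pow, map_natCast]
      ring
    rw [map_mul, hNN]
    ring
  rw [hgauss] at hlaw
  have hdh : ι d * h' ∈ T N h k := H.mem_T_mul h1
  have hgg : h / ι d * (N : E) ^ k = h * (N : E) ^ k / ι d := by ring
  have e2 : ∑' x : T N (h / ι d) k, thK φ σ t P x =
      ∑' u : LamZ N (h * (N : E) ^ k / ι d), thK φ σ t P (h' + u) := by
    rw [← hgg, ← (cosetEquivZ h1).tsum_eq]
    rfl
  refine ⟨?_, ?_⟩
  · rw [← (cosetEquivZ hdh).summable_iff]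
    exact hlaw.1
  · rw [← (cosetEquivZ hdh).tsum_eq, e2]
    exact hlaw.2

theorem nuF_eq_nI_sq (d : Fˣ) : nuF (d : F) = B11.nI d ^ 2 := by
  rw [nuF, B11.nI, ← Finset.prod_pow]

theorem absNorm_eq_nR {d : Fˣ} (hd : (d : F) ∈ RS F N) :
    ((Ideal.absNorm (dId N (d : F)) : ℕ) : ℝ) = B11.nR F N d :=
  absNorm_dId (B11.pl F N) (fun _ => B11.mem_pl) hd

/-- the points of `ℂ × ℝ` attached to `P : Xi F`. -/
def pts (P : Xi F) (w : InfinitePlace F) : ℂ × ℝ := ((P w).z, (P w).y)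

theorem pts_pos (P : Xi F) (w : InfinitePlace F) : 0 < (pts P w).2 := (P w).y_pos

theorem thK_eq_G (P : Xi F) (x : E) :
    thK φ σ t P x = WeilInf.G (pts P) t (Poisson.jpair φ ((σ : E ≃+* E) : E →+* E) x) := rfl

/-- **The law in the form of `Torus.Quad.GS_law`.** -/
theorem Good.theta_law [IsGalois F E] (hE : finrank F E = 2) (Q : Torus.Quad F E)
    (H : Good N k m₀ a b c d h) (hD : DiffBound E N m₀) (hDF : DiffBound F N m₁)
    (hN : ∀ w : HeightOneSpectrum (𝓞 E), (N : 𝓞 E) ∉ w.asIdeal →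
      ∃ x : 𝓞 E, x - NF.cI Q.c x ∉ w.asIdeal) {γ : GL (Fin 2) F}
    (hγ : (γ : Matrix (Fin 2) (Fin 2) F) = !![a, b; c, d]) (P : Xi F) (ht : ∀ w, 0 < t w) :
    Q.theta (T N h k) (pts (γ • P)) t =
      (((nuF d : ℝ) : ℂ)⁻¹ * ((Ideal.absNorm (dId N d) : ℂ) * QD.chi (𝓞 E) (dId N d))) *
        Q.theta (T N (h / ι d) k) (pts P) t :=
  (H.law_nf hE Q.c_ne (fun w x => RingHom.congr_fun (Q.φ_comp w) x) hD hDF hN ht hγ P).2

/-- the same with `nR d / nI d ^ 2`. -/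
theorem Good.theta_law' [IsGalois F E] (hE : finrank F E = 2) (Q : Torus.Quad F E) {d : Fˣ}
    (H : Good N k m₀ a b c (d : F) h) (hD : DiffBound E N m₀) (hDF : DiffBound F N m₁)
    (hN : ∀ w : HeightOneSpectrum (𝓞 E), (N : 𝓞 E) ∉ w.asIdeal →
      ∃ x : 𝓞 E, x - NF.cI Q.c x ∉ w.asIdeal) {γ : GL (Fin 2) F}
    (hγ : (γ : Matrix (Fin 2) (Fin 2) F) = !![a, b; c, (d : F)]) (P : Xi F) (ht : ∀ w, 0 < t w) :
    Q.theta (T N h k) (pts (γ • P)) t =
      (((Real.sqrt (B11.nR F N d) / B11.nI d) ^ 2 : ℝ) * QD.chi (𝓞 E) (dId N (d : F))) *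
        Q.theta (T N (h / ι d) k) (pts P) t := by
  have h1 := H.theta_law hE Q hD hDF hN hγ P ht
  have h2 := absNorm_eq_nR (N := N) H.d_mem
  rw [h1, nuF_eq_nI_sq, _root_.div_pow, Real.sq_sqrt (B11.nR_pos N d).le, ← h2]
  push_cast
  ring

end Fermat.Agent.LT.SAd
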