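import Fermat.Agent.LT.Theta11.HeckeT
import Fermat.Agent.LT.Theta11.SCond
import Fermat.Agent.LT.B11.Fam

/-!
# Hecke operators on the function `Φ : X_∞ × GL₂(F) → ℂ` of B11 ((G), concrete form, helper58)

* `thS` : the additive character `θ_S (x) = e (- Tr x₁)`, `x = x₁ + x₂`, `x₁ ∈ 𝓞 F [1/N]`,
  `x₂` integral at `N`;
* `mem_RS_iff_thS` : the duality `(∀ r ∈ RS, e (Tr (x r)) θ_S (x r) = 1) ↔ x ∈ RS`;
* `hasSum_upper` : the expansion of `Φ (P, n(b) diag(δ,1))` from the one of `Φ (P, diag(δ,1))`;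
* `tt_Phi` : `T_π Φ = μ Φ` from `lam (π ξ) + lam (ξ / π) = x lam ξ`.
-/

set_option autoImplicit false
set_option linter.unusedSectionVars false

noncomputable section

open NumberField

namespace Fermat.Agent.LT.HeckeT

open SAd

/-! ### The additive characters -/

/-- `e (q) = exp (2 π i q)`. -/
def eQ (q : ℚ) : ℂ := Complex.exp (2 * Real.pi * Complex.I * (q : ℂ))

theorem eQ_add (x y : ℚ) : eQ (x + y) = eQ x * eQ y := by
  unfold eQ
  rw [← Complex.exp_add]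
  congr 1
  push_cast
  ring

theorem eQ_zero : eQ 0 = 1 := by simp [eQ]

theorem eQ_eq_one_iff {x : ℚ} : eQ x = 1 ↔ ∃ n : ℤ, (n : ℚ) = x := by
  unfold eQ
  rw [Complex.exp_eq_one_iff]
  have h0 : (2 * Real.pi * Complex.I : ℂ) ≠ 0 := by
    simp [Real.pi_ne_zero]
  constructor
  · rintro ⟨n, hn⟩
    refine ⟨n, ?_⟩
    have h1 : (2 * Real.pi * Complex.I : ℂ) * ((x : ℂ) - n) = 0 := by
      rw [mul_sub, hn]; ring
    have h2 := (mul_eq_zero.mp h1).resolve_left h0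
    have h3 : (x : ℂ) = ((n : ℚ) : ℂ) := by
      rw [sub_eq_zero.mp h2]; push_cast; ring
    exact_mod_cast h3.symm
  · rintro ⟨n, rfl⟩
    exact ⟨n, by push_cast; ring⟩

theorem eQ_int (n : ℤ) : eQ (n : ℚ) = 1 := eQ_eq_one_iff.mpr ⟨n, rfl⟩

theorem eQ_neg_eq {x y : ℚ} (h : ∃ n : ℤ, (n : ℚ) = x - y) : eQ x = eQ y := by
  obtain ⟨n, hn⟩ := h
  have : x = y + n := by rw [hn]; ring
  rw [this, eQ_add, eQ_int, mul_one]

section Char

variable {F : Type*} [Field F] [NumberField F] {N : ℕ} [NeZero N]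

/-- additive splitting. -/
theorem exists_split_add (δ : F) (hδ : δ ≠ 0) (b : F) :
    ∃ b₁ ∈ RS F N, ∃ a ∈ AS F N, b = b₁ + δ * a := by
  obtain ⟨j, hj⟩ := exists_pow_mul_mem_AS N (b / δ)
  obtain ⟨x, hx, y, hy, hxy⟩ := exists_near (N := N) b j
  refine ⟨x, hx, -(((N : F) ^ j * (b / δ)) * y),
    (AS F N).neg_mem ((AS F N).mul_mem hj hy), ?_⟩
  have h1 : δ * -(((N : F) ^ j * (b / δ)) * y) = -(b * (N : F) ^ j * y) := by
    field_simp
  rw [h1, ← hxy]
  ring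

theorem exists_split_one (b : F) : ∃ b₁ ∈ RS F N, b - b₁ ∈ AS F N := by
  obtain ⟨b₁, h1, a, ha, hb⟩ := exists_split_add (N := N) (1 : F) one_ne_zero b
  exact ⟨b₁, h1, by rw [hb]; simpa using ha⟩

variable (N) in
/-- the `RS`-part of an element (not unique). -/
def p1 (x : F) : F := (exists_split_one (N := N) x).choose

theorem p1_mem (x : F) : p1 N x ∈ RS F N := (exists_split_one (N := N) x).choose_spec.1

theorem sub_p1_mem (x : F) : x - p1 N x ∈ AS F N := (exists_split_one (N := N) x).choose_spec.2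

omit [NeZero N] in
theorem trace_int {x : F} (hx : IsIntegral ℤ x) : ∃ n : ℤ, (n : ℚ) = Algebra.trace ℚ F x :=
  isIntegral_rat (Algebra.isIntegral_trace hx)

omit [NeZero N] in
theorem eQ_trace_eq {x y : F} (hx : x ∈ RS F N) (hy : y ∈ RS F N) (h : x - y ∈ AS F N) :
    eQ (- Algebra.trace ℚ F x) = eQ (- Algebra.trace ℚ F y) := by
  apply eQ_neg_eq
  obtain ⟨n, hn⟩ := trace_int (isIntegral_of_mem ((RS F N).sub_mem hx hy) h)
  refine ⟨-n, ?_⟩
  push_cast
  rw [hn, map_sub]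
  ring

variable (F N) in
/-- **The character `θ_S`**. -/
def thS : AddChar F ℂ where
  toFun x := eQ (- Algebra.trace ℚ F (p1 N x))
  map_zero_eq_one' := by
    rw [eQ_trace_eq (N := N) (p1_mem 0) (RS F N).zero_mem
      (by have := sub_p1_mem (N := N) (0 : F); rw [← neg_sub]; exact (AS F N).neg_mem this)]
    rw [map_zero, neg_zero, eQ_zero]
  map_add_eq_mul' := by
    intro x y
    rw [← eQ_add, eQ_trace_eq (N := N) (p1_mem (x + y))
      ((RS F N).add_mem (p1_mem x) (p1_mem y))]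
    · rw [map_add]; congr 1; ring
    · have h1 := sub_p1_mem (N := N) x
      have h2 := sub_p1_mem (N := N) y
      have h3 := sub_p1_mem (N := N) (x + y)
      have : p1 N (x + y) - (p1 N x + p1 N y) =
          (x - p1 N x) + (y - p1 N y) - (x + y - p1 N (x + y)) := by ring
      rw [this]
      exact (AS F N).sub_mem ((AS F N).add_mem h1 h2) h3

theorem thS_eq {x x₁ : F} (h1 : x₁ ∈ RS F N) (h2 : x - x₁ ∈ AS F N) :
    thS F N x = eQ (- Algebra.trace ℚ F x₁) := by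
  show eQ _ = _
  refine eQ_trace_eq (N := N) (p1_mem x) h1 ?_
  have h3 := sub_p1_mem (N := N) x
  have : p1 N x - x₁ = (x - x₁) - (x - p1 N x) := by ring
  rw [this]
  exact (AS F N).sub_mem h2 h3

theorem thS_RS {x : F} (h : x ∈ RS F N) : thS F N x = eQ (- Algebra.trace ℚ F x) :=
  thS_eq h (by rw [sub_self]; exact (AS F N).zero_mem)

theorem thS_AS {x : F} (h : x ∈ AS F N) : thS F N x = 1 := by
  rw [thS_eq (RS F N).zero_mem (by rwa [sub_zero]), map_zero, neg_zero, eQ_zero]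

variable (F) in
/-- the character at infinity. -/
def thI : AddChar F ℂ where
  toFun x := eQ (Algebra.trace ℚ F x)
  map_zero_eq_one' := by rw [map_zero, eQ_zero]
  map_add_eq_mul' := by
    intro x y
    rw [← eQ_add, map_add]

omit [NeZero N] in
theorem thI_apply (x : F) : thI F x = eQ (Algebra.trace ℚ F x) := rfl

theorem thI_mul_thS {x : F} (h : x ∈ RS F N) : thI F x * thS F N x = 1 := by
  rw [thS_RS h, thI_apply, ← eQ_add, add_neg_cancel, eQ_zero]

/-- **Duality.** -/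
theorem mem_RS_iff_thS {m₀ : ℕ} (hD : DiffBound F N m₀) (x : F) :
    (∀ r ∈ RS F N, thI F (x * r) * thS F N (x * r) = 1) ↔ x ∈ RS F N := by
  constructor
  · intro h
    set x₂ := x - p1 N x with hx₂
    have h2 : x₂ ∈ AS F N := sub_p1_mem x
    have h3 : ∀ r : F, IsIntegral ℤ r → ∃ n : ℤ, (n : ℚ) = Algebra.trace ℚ F (r * x₂) := by
      intro r hr
      have hrR := mem_RS_of_isIntegral (N := N) hr
      have h4 := h r hrR
      have h5 := thI_mul_thS (F := F) (N := N) ((RS F N).mul_mem (p1_mem x) hrR)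
      have h6 : x * r = p1 N x * r + x₂ * r := by rw [hx₂]; ring
      rw [h6, AddChar.map_add_eq_mul, AddChar.map_add_eq_mul] at h4
      have h7 : thI F (x₂ * r) * thS F N (x₂ * r) = 1 := by
        linear_combination h4 - (thI F (x₂ * r) * thS F N (x₂ * r)) * h5
      rw [thS_AS ((AS F N).mul_mem h2 (mem_AS_of_isIntegral hr)), mul_one, thI_apply,
        eQ_eq_one_iff] at h7
      rw [mul_comm r]
      exact h7
    have h8 : x₂ ∈ RS F N := ⟨m₀, hD x₂ h3⟩
    have h9 : x = p1 N x + x₂ := by rw [hx₂]; ring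
    rw [h9]
    exact (RS F N).add_mem (p1_mem x) h8
  · intro hx r hr
    exact thI_mul_thS ((RS F N).mul_mem hx hr)

end Char

/-! ### Maximal principal ideals -/

theorem hfield_of_isMaximal {R : Type*} [CommRing R] {p : R} (h : (Ideal.span {p}).IsMaximal) :
    ∀ a : R, ¬ p ∣ a → ∃ b : R, p ∣ a * b - 1 := by
  intro a ha
  obtain ⟨b, i, hi, hab⟩ := h.exists_inv (x := a) (fun hm => ha (Ideal.mem_span_singleton.mp hm))
  obtain ⟨c, rfl⟩ := Ideal.mem_span_singleton.mp hi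
  exact ⟨b, -c, by linear_combination hab⟩

theorem hnu_of_isMaximal {R : Type*} [CommRing R] {p : R} (h : (Ideal.span {p}).IsMaximal) :
    ¬ IsUnit p := fun hu => h.ne_top (Ideal.span_singleton_eq_top.mpr hu)

/-! ### The expansion -/

section Main

variable {F : Type*} [Field F] [NumberField F] {N : ℕ} [NeZero N]
variable {A X : Type*} [CommGroup A] [MulAction (GL (Fin 2) F) X]

/-- what is needed about the data `D` of the family. -/
structure DatOK (N : ℕ) [NeZero N] (D : B11.Dat A Fˣ X) : Prop where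
  act_eq : ∀ (b : Fˣ) (P : X), D.act b P = (dg b 1 : GL (Fin 2) F) • P
  scalar_smul : ∀ (z : Fˣ) (P : X), (dg z z : GL (Fin 2) F) • P = P
  W_nn : ∀ (x : F) (P : X) (ξ : Fˣ),
    D.W ((nn x : GL (Fin 2) F) • P) ξ = eQ (Algebra.trace ℚ F ((ξ : F) * x)) * D.W P ξ
  VB_AS : ∀ v ∈ D.VB, (v : F) ∈ AS F N
  lam_supp : ∀ ξ : Fˣ, D.lam ξ ≠ 0 → (ξ : F) ∈ RS F N

variable {D : B11.Dat A Fˣ X}

open Classical in
/-- the term of the expansion of `Φ (P, n(b) diag(δ,1))`. -/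
def tmU (N : ℕ) [NeZero N] (D : B11.Dat A Fˣ X) (P : X) (b : F) (δ : Fˣ) (ξ : Fˣ) : ℂ :=
  (D.s δ : ℂ) * (if ξ * δ ∈ D.VB then D.lam ξ * D.W P ξ else 0) * thS F N ((ξ : F) * b)

/-- **The expansion on the Borel subgroup from the expansion on the torus.** -/
theorem hasSum_upper (H : DatOK N D) {Φ : X → GL (Fin 2) F → ℂ}
    (hl : ∀ r ∈ RS F N, ∀ P g, Φ ((nn r : GL (Fin 2) F) • P) (nn r * g) = Φ P g)
    (hr : ∀ a ∈ AS F N, ∀ P g, Φ P (g * nn a) = Φ P g)
    (h0 : ∀ P (δ : Fˣ), HasSum (tmU N D P 0 δ) (Φ P (dg δ 1)))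
    (P : X) (b : F) (δ : Fˣ) : HasSum (tmU N D P b δ) (Φ P (nn b * dg δ 1)) := by
  obtain ⟨b₁, hb₁, a, ha, hb⟩ := exists_split_add (N := N) (δ : F) δ.ne_zero b
  have e1 : Φ P (nn b * dg δ 1) = Φ ((nn (-b₁) : GL (Fin 2) F) • P) (dg δ 1) := by
    rw [← hl (-b₁) ((RS F N).neg_mem hb₁) P (nn b * dg δ 1),
      ← hr a ha ((nn (-b₁) : GL (Fin 2) F) • P) (dg δ 1), dg_mul_nn, ← mul_assoc, nn_mul_nn]
    congr 3
    rw [hb]
    simp
  rw [e1]
  refine hasSum_of_eq (h0 ((nn (-b₁) : GL (Fin 2) F) • P) δ) (fun ξ => ?_)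
  unfold tmU
  rw [mul_zero, AddChar.map_zero_eq_one, mul_one]
  by_cases hV : ξ * δ ∈ D.VB
  · rw [if_pos hV, if_pos hV]
    by_cases hlam : D.lam ξ = 0
    · simp [hlam]
    · have hξ := H.lam_supp ξ hlam
      have h2 : (ξ : F) * b - (ξ : F) * b₁ ∈ AS F N := by
        have h3 : (ξ : F) * b - (ξ : F) * b₁ = ((ξ * δ : Fˣ) : F) * a := by
          rw [hb, Units.val_mul]; ring
        rw [h3]
        exact (AS F N).mul_mem (H.VB_AS _ hV) ha
      rw [thS_eq ((RS F N).mul_mem hξ hb₁) h2, H.W_nn, mul_neg, map_neg]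
      ring
  · rw [if_neg hV, if_neg hV]
    simp

variable (N D) in
/-- the constant `|ξ|_S^(1/2) ∏ |ξ_w| = N (ξ R)^(1/2)`. -/
def mm (ξ : Fˣ) : ℂ := (D.s ξ : ℂ) * (D.nI ξ : ℂ)

theorem mm_ne (ξ : Fˣ) : mm D ξ ≠ 0 :=
  mul_ne_zero (Complex.ofReal_ne_zero.mpr (D.s_pos ξ).ne')
    (Complex.ofReal_ne_zero.mpr (D.nI_pos ξ).ne')

theorem mm_mul (ξ η : Fˣ) : mm D (ξ * η) = mm D ξ * mm D η := by
  unfold mm
  rw [D.s_mul, D.nI_mul]
  push_cast
  ring

theorem mm_inv (ξ : Fˣ) : mm D ξ⁻¹ = (mm D ξ)⁻¹ := by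
  have h := mm_mul (D := D) ξ ξ⁻¹
  have h1 : mm D 1 = 1 := by
    unfold mm
    rw [D.s_one, D.nI_one]
    simp
  rw [mul_inv_cancel, h1] at h
  exact eq_inv_of_mul_eq_one_right h.symm

open Classical in
/-- the data `Exp` of `HeckeT` for the family. -/
def famExp {m₀ : ℕ} (hD : DiffBound F N m₀) (H : DatOK N D) :
    Exp (F := F) (RS F N) F F X where
  κ ξ := D.lam ξ / mm D ξ
  v y := if y ∈ D.VB then 1 else 0
  W P := D.W P 1
  θi := thI F
  θf := thS F N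
  scalar_smul := H.scalar_smul
  W_nn x P := by
    rw [H.W_nn, Units.val_one, one_mul]
    rfl
  dual x := by
    have h1 : (x ∈ Set.range (algebraMap (RS F N) F)) ↔ x ∈ RS F N := by
      constructor
      · rintro ⟨y, rfl⟩
        exact y.2
      · intro h
        exact ⟨⟨x, h⟩, rfl⟩
    rw [h1, ← mem_RS_iff_thS hD x]
    constructor
    · intro h r hr
      exact h ⟨r, hr⟩
    · intro h r
      exact h r r.2
  supp ξ h := by
    have h1 : D.lam ξ ≠ 0 := by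
      intro h0
      apply h
      rw [h0, zero_div]
    exact ⟨⟨ξ, H.lam_supp ξ h1⟩, rfl⟩

theorem term_famExp {m₀ : ℕ} (hD : DiffBound F N m₀) (H : DatOK N D) (P : X) (b : F) (δ ξ : Fˣ) :
    (famExp hD H).term (famExp hD H).κ P b δ ξ = tmU N D P b δ ξ := by
  classical
  unfold Exp.term tmU
  have h1 : uf F ξ = ξ := by
    ext
    rfl
  rw [h1]
  show D.lam ξ / mm D ξ * (if ξ * δ ∈ D.VB then 1 else 0) *
    D.W ((dg ξ 1 : GL (Fin 2) F) • P) 1 * thS F N (ξ * b) = _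
  rw [← H.act_eq, D.W_act, mul_one]
  by_cases hV : ξ * δ ∈ D.VB
  · rw [if_pos hV, if_pos hV]
    have h2 : (D.s ξ : ℂ) * (D.s δ : ℂ) = 1 := by
      have h3 := D.s_VB _ hV
      rw [D.s_mul] at h3
      exact_mod_cast h3
    have h4 := mm_ne (D := D) ξ
    have h5 : (D.s δ : ℂ) = (D.nI ξ : ℂ) / mm D ξ := by
      unfold mm at *
      have h6 : (D.s ξ : ℂ) ≠ 0 := left_ne_zero_of_mul (by rw [h2]; exact one_ne_zero)
      have h7 : (D.nI ξ : ℂ) ≠ 0 := Complex.ofReal_ne_zero.mpr (D.nI_pos ξ).ne'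
      field_simp
      linear_combination h2
    rw [h5]
    field_simp
  · rw [if_neg hV, if_neg hV]
    simp

/-- **`T_π Φ = μ Φ`.** -/
theorem tt_Phi {m₀ : ℕ} (hD : DiffBound F N m₀) (H : DatOK N D) {Φ : X → GL (Fin 2) F → ℂ}
    (hΓ : ∀ (γ : GL (Fin 2) (RS F N)) (P : X) (g : GL (Fin 2) F),
      Φ (toF (F := F) γ • P) (toF (F := F) γ * g) = Φ P g)
    (hz : ∀ (P : X) (g : GL (Fin 2) F) (z : Fˣ), Φ P (g * dg z z) = Φ P g)
    (U : Set (GL (Fin 2) F)) (hU : ∀ u ∈ U, ∀ P g, Φ P (g * u) = Φ P g)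
    (hAU : ∀ a ∈ AS F N, nn a ∈ U)
    (hd : ∀ g : GL (Fin 2) F, ∃ (γ : GL (Fin 2) (RS F N)) (b : F) (δ z : Fˣ), ∃ u ∈ U,
      toF (F := F) γ * g = nn b * dg δ 1 * dg z z * u)
    (h0 : ∀ P (δ : Fˣ), HasSum (tmU N D P 0 δ) (Φ P (dg δ 1)))
    {p : RS F N} (hmax : (Ideal.span {p}).IsMaximal)
    [Fintype (RS F N ⧸ Ideal.span {p})] {π : Fˣ} (hπ : (π : F) = (p : F))
    (hq : (Fintype.card (RS F N ⧸ Ideal.span {p}) : ℂ) = mm D π ^ 2) {x : ℂ}
    (hrec : ∀ ξ : Fˣ, (ξ : F) ∈ RS F N → D.lam (ξ * π) + D.lam (ξ * π⁻¹) = x * D.lam ξ)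
    (P : X) (g : GL (Fin 2) F) : tt p π Φ P g = mm D π * x * Φ P g := by
  classical
  have hπ' : (π : F) = algebraMap (RS F N) F p := hπ
  have hmap : ∀ g : GL (Fin 2) F, Matrix.GeneralLinearGroup.map (algebraMap F F) g = g := by
    intro g
    apply Units.ext
    ext i j
    rfl
  have hrange : ∀ y : F, y ∈ Set.range (algebraMap (RS F N) F) ↔ y ∈ RS F N := by
    intro y
    constructor
    · rintro ⟨y, rfl⟩
      exact y.2
    · intro h
      exact ⟨⟨y, h⟩, rfl⟩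
  refine tt_eq (hnu_of_isMaximal hmax) (hfield_of_isMaximal hmax) hπ' (famExp hD H) (Φ := Φ) ?_ hz ?_ U hU ?_ ?_ P g
  · intro P b δ
    refine hasSum_of_eq (hasSum_upper H ?_ ?_ h0 P b δ) (term_famExp hD H P b δ)
    · intro r hr P g
      have h1 := hΓ (nn ⟨r, hr⟩) P g
      have h2 : toF (F := F) (nn (⟨r, hr⟩ : RS F N)) = nn r := map_nn _ _
      rwa [h2] at h1
    · intro a ha P g
      exact hU _ (hAU a ha) P g
  · intro γ
    funext P g
    show Φ _ _ = _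
    rw [hmap]
    exact hΓ γ P g
  · intro g
    obtain ⟨γ, b, δ, z, u, hu, hg⟩ := hd g
    refine ⟨γ, b, δ, z, u, hu, ?_⟩
    rw [hmap]
    exact hg
  · intro ξ
    show D.lam (ξ * π⁻¹) / mm D (ξ * π⁻¹) +
      (if (ξ : F) ∈ Set.range (algebraMap (RS F N) F) then
        (Fintype.card (RS F N ⧸ Ideal.span {p}) : ℂ) * (D.lam (ξ * π) / mm D (ξ * π)) else 0) =
      mm D π * x * (D.lam ξ / mm D ξ)
    have hm1 := mm_ne (D := D) ξ
    have hm2 := mm_ne (D := D) π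
    rw [mm_mul, mm_mul, mm_inv, hq]
    by_cases hξ : (ξ : F) ∈ RS F N
    · rw [if_pos ((hrange _).mpr hξ)]
      have h1 := hrec ξ hξ
      field_simp
      linear_combination h1
    · rw [if_neg (fun h => hξ ((hrange _).mp h))]
      have h1 : D.lam ξ = 0 := by
        by_contra h
        exact hξ (H.lam_supp ξ h)
      have h2 : D.lam (ξ * π⁻¹) = 0 := by
        by_contra h
        apply hξ
        have h3 := H.lam_supp _ h
        have h4 : (ξ : F) = ((ξ * π⁻¹ : Fˣ) : F) * (π : F) := by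
          rw [← Units.val_mul, inv_mul_cancel_right]
        rw [h4, hπ]
        exact (RS F N).mul_mem h3 p.2
      rw [h1, h2]
      simp

end Main

end Fermat.Agent.LT.HeckeT

end
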