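import Fermat.Agent.LT.Theta11.SNorm
import Fermat.Agent.LT.Th.GaussC

/-!
# The constant of the law: `N(D) η(D)`
-/

set_option autoImplicit false
set_option linter.unusedSectionVars false

namespace Fermat.Agent.LT.SAd

open NumberField IsDedekindDomain Fermat.Agent.LT.Th
open Fermat.Agent.CFT.SUnits Fermat.Agent.CFT.Global

section Sign

variable {F E : Type*} [Field F] [NumberField F] [Field E] [NumberField E] [Algebra F E]
  {N : ℕ} [NeZero N]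

/-- `chi` (helper51) at `dId N d`. -/
theorem chi_dId {A : Type*} [AddCommGroup A] (χ : Multiplicative A →* ℂ)
    (f : HeightOneSpectrum (𝓞 F) → A)
    (hf : ∀ v : HeightOneSpectrum (𝓞 F), (N : 𝓞 F) ∉ v.asIdeal →
      QD.sgn (𝓞 E) v.asIdeal = χ (Multiplicative.ofAdd (f v)))
    (S : Finset (HeightOneSpectrum (𝓞 F))) (hS : ∀ v, v ∈ S ↔ (N : 𝓞 F) ∈ v.asIdeal)
    {d : Fˣ} (hd : (d : F) ∈ RS F N) :
    QD.chi (𝓞 E) (dId N (d : F)) = χ (rayVal S f d) := by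
  refine mulFun_dId (QD.chi (𝓞 E)) ?_ (fun I J hI hJ _ => QD.chi_mul hI hJ) χ f ?_ S hS hd
  · rw [Ideal.one_eq_top]
    exact QD.chi_top
  · intro v hv
    rw [QD.chi_prime (v.isPrime.isMaximal v.ne_bot) v.ne_bot]
    exact hf v hv

/-- the different of `E / F` is prime to `dId N d` if it divides a power of `N`. -/
theorem dif_sup_ex (q : QD (𝓞 F) (𝓞 E)) {j : ℕ} (hj : (N : 𝓞 E) ^ j ∈ q.dif) (d : F) :
    q.dif ⊔ QD.ex (dId N d) = ⊤ := by
  obtain ⟨n, -, hc, hn⟩ := exists_natCast_mem_dId N d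
  obtain ⟨u, v, huv⟩ : IsCoprime (n : ℤ) ((N : ℤ) ^ j) := (Nat.isCoprime_iff_coprime.2 hc).pow_right
  rw [Ideal.eq_top_iff_one]
  have h1 : (1 : 𝓞 E) = (v : 𝓞 E) * (N : 𝓞 E) ^ j + (u : 𝓞 E) * (n : 𝓞 E) := by
    have := congrArg (fun z : ℤ => (z : 𝓞 E)) huv
    push_cast at this
    rw [← this]; ring
  rw [h1]
  refine Ideal.add_mem _ (Ideal.mem_sup_left (q.dif.mul_mem_left _ hj))
    (Ideal.mem_sup_right (Ideal.mul_mem_left _ _ ?_))
  have := Ideal.mem_map_of_mem (algebraMap (𝓞 F) (𝓞 E)) hn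
  rwa [map_natCast] at this

variable {Pt : Type*} {κ : Kernel F E Pt} {σ : E ≃ₐ[F] E} {k m₀ : ℕ} {a b c : F} {d : Fˣ} {h : E}

/-- **(C0)** with the explicit constant. -/
theorem Good.law' (H : Good N k m₀ a b c (d : F) h) (hκ : IsNormKernel κ σ)
    (hD : DiffBound E N m₀) {m₁ : ℕ} (hDF : DiffBound F N m₁) (q : QD (𝓞 F) (𝓞 E))
    (hqd : ∀ x : 𝓞 E, algebraMap (𝓞 F) F (q.nm x) = Algebra.norm F (algebraMap (𝓞 E) E x))
    {j : ℕ} (hj : (N : 𝓞 E) ^ j ∈ q.dif)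
    {A : Type*} [AddCommGroup A] (χ : Multiplicative A →* ℂ) (f : HeightOneSpectrum (𝓞 F) → A)
    (hf : ∀ v : HeightOneSpectrum (𝓞 F), (N : 𝓞 F) ∉ v.asIdeal →
      QD.sgn (𝓞 E) v.asIdeal = χ (Multiplicative.ofAdd (f v)))
    (S : Finset (HeightOneSpectrum (𝓞 F))) (hS : ∀ v, v ∈ S ↔ (N : 𝓞 F) ∈ v.asIdeal)
    {C : ℂ} (hP : κ.Poisson (LamG N (h * (N : E) ^ k / algebraMap F E d))
      (dualG σ (Lam N (h * (N : E) ^ k / algebraMap F E d))) C) (P : Pt) :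
    Summable (fun x : T N h k => κ.K (κ.act b c d P) x) ∧
    ∑' x : T N h k, κ.K (κ.act b c d P) x =
      ((Real.exp (rayVal S (fun v => Real.log (Ideal.absNorm v.asIdeal)) d).toAdd : ℝ) : ℂ) *
        (κ.ν d)⁻¹ * χ (rayVal S f d) * ∑' x : T N (h / algebraMap F E d) k, κ.K P x := by
  classical
  have hne : (dId N (d : F)).map (algebraMap (𝓞 F) (𝓞 E)) ≠ ⊥ := by
    intro h0
    obtain ⟨n, hn, -, h1⟩ := exists_natCast_mem_dId N (d : F)
    have h2 := Ideal.mem_map_of_mem (algebraMap (𝓞 F) (𝓞 E)) h1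
    rw [h0, Ideal.mem_bot, map_natCast] at h2
    exact hn (by exact_mod_cast h2)
  have : Finite (𝓞 E ⧸ (dId N (d : F)).map (algebraMap (𝓞 F) (𝓞 E))) :=
    Ideal.finiteQuotientOfFreeOfNeBot _ hne
  have : Fintype (𝓞 E ⧸ (dId N (d : F)).map (algebraMap (𝓞 F) (𝓞 E))) := Fintype.ofFinite _
  have hlaw := H.law hκ hD hDF q hqd (fun e he =>
    q.gauss_eq (dId_ne_bot N (d : F)) (dif_sup_ex q hj (d : F)) he) hP P
  refine ⟨hlaw.1, ?_⟩
  rw [hlaw.2, chi_dId (E := E) χ f hf S hS H.d_mem, ← absNorm_dId S hS H.d_mem]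
  push_cast
  ring

end Sign

end Fermat.Agent.LT.SAd
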