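import Mathlib

/-!
# Hecke operators on functions on `X_∞ × GL₂(F_S)` given by a Fourier expansion (B11 (G), helper58)

`R ⊂ F`, `F → R_∞`, `F → R_f`; `Φ : X_∞ → GL₂(R_f) → ℂ`. For a prime element `π` of `R` with finite
residue ring `T_π Φ (P, g) = Φ (α_∞ P, α_∞ g) + ∑_{b mod π} Φ (α_b P, α_b g)`,
`α_b = (1 b; 0 π)`, `α_∞ = diag(π, 1)`.

* `tt_smul` : `T_π Φ` is left `GL₂(R)`-invariant if `Φ` is;
* `tt_of_expansion` : on `n(b) diag(δ, 1)` the operator acts on the coefficients of the expansion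
  `Φ (P, n(b) diag(δ,1)) = ∑_ξ κ(ξ) v(ξ δ) W(diag(ξ,1) P) θ_f(ξ b)` by
  `κ(ξ) ↦ κ(ξ/π) + [ξ ∈ R] q κ(π ξ)`;
* `tt_eq` : eigenvalue everywhere from `GL₂(R_f) = Γ B U`.
-/

set_option autoImplicit false

noncomputable section

open Matrix

namespace Fermat.Agent.LT.HeckeT

section Elem

variable {A : Type*} [CommRing A]

/-- `n(x)`. -/
def nn (x : A) : GL (Fin 2) A :=
  ⟨!![1, x; 0, 1], !![1, -x; 0, 1], by
    ext i j; fin_cases i <;> fin_cases j <;> simp [Matrix.mul_apply, Fin.sum_univ_two], by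
    ext i j; fin_cases i <;> fin_cases j <;> simp [Matrix.mul_apply, Fin.sum_univ_two]⟩

/-- `diag(a, d)`. -/
def dg (a d : Aˣ) : GL (Fin 2) A :=
  ⟨!![(a : A), 0; 0, (d : A)], !![((a⁻¹ : Aˣ) : A), 0; 0, ((d⁻¹ : Aˣ) : A)], by
    ext i j; fin_cases i <;> fin_cases j <;> simp [Matrix.mul_apply, Fin.sum_univ_two], by
    ext i j; fin_cases i <;> fin_cases j <;> simp [Matrix.mul_apply, Fin.sum_univ_two]⟩

@[simp] theorem val_nn (x : A) : (nn x : Matrix (Fin 2) (Fin 2) A) = !![1, x; 0, 1] := rfl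

@[simp] theorem val_dg (a d : Aˣ) :
    (dg a d : Matrix (Fin 2) (Fin 2) A) = !![(a : A), 0; 0, (d : A)] := rfl

theorem nn_mul_nn (x y : A) : nn x * nn y = nn (x + y) := by
  apply Units.ext
  rw [Units.val_mul]
  ext i j; fin_cases i <;> fin_cases j <;> simp [Matrix.mul_apply, Fin.sum_univ_two, add_comm]

theorem dg_mul_dg (a d a' d' : Aˣ) : dg a d * dg a' d' = dg (a * a') (d * d') := by
  apply Units.ext
  rw [Units.val_mul]
  ext i j; fin_cases i <;> fin_cases j <;> simp [Matrix.mul_apply, Fin.sum_univ_two]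

theorem dg_mul_nn (a d : Aˣ) (x : A) :
    dg a d * nn x = nn ((a : A) * x * ((d⁻¹ : Aˣ) : A)) * dg a d := by
  apply Units.ext
  rw [Units.val_mul, Units.val_mul]
  ext i j; fin_cases i <;> fin_cases j <;> simp [Matrix.mul_apply, Fin.sum_univ_two]

theorem dg_comm (a d a' d' : Aˣ) : dg a d * dg a' d' = dg a' d' * dg a d := by
  rw [dg_mul_dg, dg_mul_dg, mul_comm a, mul_comm d]

theorem dg_scalar_mul (z : Aˣ) (g : GL (Fin 2) A) : dg z z * g = g * dg z z := by
  apply Units.ext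
  rw [Units.val_mul, Units.val_mul]
  ext i j
  fin_cases i <;> fin_cases j <;> simp [Matrix.mul_apply, Fin.sum_univ_two, mul_comm]

variable {B : Type*} [CommRing B] (f : A →+* B)

theorem map_nn (x : A) : GeneralLinearGroup.map f (nn x) = nn (f x) := by
  apply Units.ext
  ext i j
  fin_cases i <;> fin_cases j <;> simp [GeneralLinearGroup.map]

theorem map_dg (a d : Aˣ) : GeneralLinearGroup.map f (dg a d) =
    dg (Units.map (f : A →* B) a) (Units.map (f : A →* B) d) := by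
  apply Units.ext
  ext i j
  fin_cases i <;> fin_cases j <;> simp [GeneralLinearGroup.map]

end Elem

section Defs

variable {R F Rf Xi : Type*} [CommRing R] [Field F] [Algebra R F] [CommRing Rf] [Algebra F Rf]
  [MulAction (GL (Fin 2) F) Xi]

/-- `α_∞ = diag(π, 1)`. -/
def ainf (π : Fˣ) : GL (Fin 2) F := dg π 1

/-- `α_b = (1 b; 0 π)`. -/
def ab (π : Fˣ) (b : F) : GL (Fin 2) F := nn (b * ((π⁻¹ : Fˣ) : F)) * dg 1 π

theorem val_ab (π : Fˣ) (b : F) : (ab π b : Matrix (Fin 2) (Fin 2) F) = !![1, b; 0, (π : F)] := by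
  rw [ab, Units.val_mul]
  ext i j
  fin_cases i <;> fin_cases j <;> simp [Matrix.mul_apply, Fin.sum_univ_two]

theorem val_ainf (π : Fˣ) :
    (ainf π : Matrix (Fin 2) (Fin 2) F) = !![(π : F), 0; 0, 1] := by
  rw [ainf]
  ext i j
  fin_cases i <;> fin_cases j <;> simp

/-- translation of a function of two variables by a rational matrix. -/
def tr (g : GL (Fin 2) F) (Φ : Xi → GL (Fin 2) Rf → ℂ) : Xi → GL (Fin 2) Rf → ℂ :=
  fun P h => Φ (g • P) (GeneralLinearGroup.map (algebraMap F Rf) g * h)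

theorem tr_mul (g g' : GL (Fin 2) F) (Φ : Xi → GL (Fin 2) Rf → ℂ) :
    tr (g * g') Φ = tr g' (tr g Φ) := by
  funext P h
  simp only [tr, mul_smul, map_mul, mul_assoc]

variable (R) in
/-- representative of the index `i ∈ P¹(R/π)`. -/
def rp (p : R) (π : Fˣ) : Option (R ⧸ Ideal.span {p}) → GL (Fin 2) F
  | none => ainf π
  | some b => ab π (algebraMap R F b.out)

/-- The Hecke operator `T_π`. -/
def tt (p : R) (π : Fˣ) [Fintype (R ⧸ Ideal.span {p})] (Φ : Xi → GL (Fin 2) Rf → ℂ) :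
    Xi → GL (Fin 2) Rf → ℂ :=
  fun P h => tr (ainf π) Φ P h + ∑ b : R ⧸ Ideal.span {p}, tr (ab π (algebraMap R F b.out)) Φ P h

theorem tt_eq_sum (p : R) (π : Fˣ) [Fintype (R ⧸ Ideal.span {p})]
    (Φ : Xi → GL (Fin 2) Rf → ℂ) (P : Xi) (h : GL (Fin 2) Rf) :
    tt p π Φ P h = ∑ i : Option (R ⧸ Ideal.span {p}), tr (rp R p π i) Φ P h := by
  rw [Fintype.sum_option]
  rfl

end Defs

/-! ### Invariance under `GL₂(R)` -/

section Inv

variable {R F Rf Xi : Type*} [CommRing R] [Field F] [Algebra R F] [CommRing Rf] [Algebra F Rf]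
  [MulAction (GL (Fin 2) F) Xi]

/-- The element of `GL₂(F)` defined by an element of `GL₂(R)`. -/
abbrev toF (γ : GL (Fin 2) R) : GL (Fin 2) F := GeneralLinearGroup.map (algebraMap R F) γ

variable (R F) in
/-- Left `GL₂(R)`-invariance. -/
def Inv (Φ : Xi → GL (Fin 2) Rf → ℂ) : Prop :=
  ∀ γ : GL (Fin 2) R, tr (toF (F := F) γ) Φ = Φ

/-- an invertible matrix from its entries. -/
def mk4 {A : Type*} [CommRing A] (a b c d : A) (u : Aˣ) (h : a * d - b * c = u) :
    GL (Fin 2) A :=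
  GeneralLinearGroup.mk'' !![a, b; c, d] (by rw [Matrix.det_fin_two_of, h]; exact u.isUnit)

theorem val_mk4 {A : Type*} [CommRing A] (a b c d : A) (u : Aˣ) (h : a * d - b * c = u) :
    (mk4 a b c d u h : Matrix (Fin 2) (Fin 2) A) = !![a, b; c, d] := rfl

omit [Field F] [Algebra R F] in
theorem det_unit (γ : GL (Fin 2) R) :
    (γ 0 0 : R) * γ 1 1 - γ 0 1 * γ 1 0 = ((GeneralLinearGroup.det γ : Rˣ) : R) := by
  rw [GeneralLinearGroup.val_det_apply, Matrix.det_fin_two]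

variable {p : R} (hnu : ¬ IsUnit p)
  (hfield : ∀ a : R, ¬ p ∣ a → ∃ b : R, p ∣ a * b - 1) {π : Fˣ} (hπ : (π : F) = algebraMap R F p)

theorem out_sub (b : R) :
    p ∣ (Quotient.out (Ideal.Quotient.mk (Ideal.span {p}) b : R ⧸ Ideal.span {p}) : R) - b := by
  rw [← Ideal.mem_span_singleton, ← Ideal.Quotient.eq, Ideal.Quotient.mk_out]

include hfield hπ in
/-- `α_i γ = γ' α_{σ(i)}`. -/
theorem exists_swap (γ : GL (Fin 2) R) (i : Option (R ⧸ Ideal.span {p})) :
    ∃ (γ' : GL (Fin 2) R) (i' : Option (R ⧸ Ideal.span {p})),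
      rp R p π i * toF γ = toF γ' * rp R p π i' := by
  have hdet := det_unit γ
  set u := GeneralLinearGroup.det γ with hu
  -- the row vector attached to `i`
  obtain hi | ⟨b, rfl⟩ : i = none ∨ ∃ b, i = some b := by
    rcases i with _ | b
    · exact Or.inl rfl
    · exact Or.inr ⟨b, rfl⟩
  · subst hi
    by_cases hc : p ∣ γ 1 0
    · obtain ⟨c', hc'⟩ := hc
      refine ⟨mk4 (γ 0 0) (p * γ 0 1) c' (γ 1 1) u (by rw [← hdet, hc']; ring), none, ?_⟩
      apply Units.ext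
      rw [Units.val_mul, Units.val_mul]
      simp only [rp, val_ainf]
      ext i j
      fin_cases i <;> fin_cases j <;>
        simp [Matrix.mul_apply, Fin.sum_univ_two, val_mk4, hπ, hc', mul_comm]
    · obtain ⟨c', hc'⟩ := hfield _ hc
      obtain ⟨t, ht⟩ : p ∣ γ 1 1 - (Quotient.out (Ideal.Quotient.mk (Ideal.span {p})
          (c' * γ 1 1) : R ⧸ Ideal.span {p}) : R) * γ 1 0 := by
        obtain ⟨s, hs⟩ := out_sub (p := p) (c' * γ 1 1)
        obtain ⟨s', hs'⟩ := hc'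
        exact ⟨-(s * γ 1 0) - s' * γ 1 1, by linear_combination -(γ 1 0) * hs - (γ 1 1) * hs'⟩
      set β := (Quotient.out (Ideal.Quotient.mk (Ideal.span {p})
          (c' * γ 1 1) : R ⧸ Ideal.span {p}) : R) with hβ
      refine ⟨mk4 (p * γ 0 0) (γ 0 1 - β * γ 0 0) (γ 1 0) t u
        (by rw [← hdet]; linear_combination -(γ 0 0) * ht),
        some (Ideal.Quotient.mk (Ideal.span {p}) (c' * γ 1 1)), ?_⟩
      have ht' := congrArg (algebraMap R F) ht
      simp only [map_sub, map_mul] at ht'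
      apply Units.ext
      rw [Units.val_mul, Units.val_mul]
      simp only [rp, val_ainf, val_ab, ← hβ]
      ext i j
      fin_cases i <;> fin_cases j <;>
        simp [Matrix.mul_apply, Fin.sum_univ_two, val_mk4, hπ]
      · ring
      · linear_combination ht'
  · set β := (Quotient.out b : R) with hβ
    by_cases hc : p ∣ γ 0 0 + β * γ 1 0
    · obtain ⟨c', hc'⟩ := hc
      refine ⟨mk4 c' (γ 0 1 + β * γ 1 1) (γ 1 0) (p * γ 1 1) u (by
        rw [← hdet]; linear_combination -(γ 1 1) * hc'), none, ?_⟩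
      have hc2 := congrArg (algebraMap R F) hc'
      simp only [map_add, map_mul] at hc2
      apply Units.ext
      rw [Units.val_mul, Units.val_mul]
      simp only [rp, val_ainf, val_ab, ← hβ]
      ext i j
      fin_cases i <;> fin_cases j <;>
        simp [Matrix.mul_apply, Fin.sum_univ_two, val_mk4, hπ]
      · linear_combination hc2
      · ring
    · obtain ⟨c', hc'⟩ := hfield _ hc
      obtain ⟨t, ht⟩ : p ∣ (γ 0 1 + β * γ 1 1) - (Quotient.out (Ideal.Quotient.mk (Ideal.span {p})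
          (c' * (γ 0 1 + β * γ 1 1)) : R ⧸ Ideal.span {p}) : R) * (γ 0 0 + β * γ 1 0) := by
        obtain ⟨s, hs⟩ := out_sub (p := p) (c' * (γ 0 1 + β * γ 1 1))
        obtain ⟨s', hs'⟩ := hc'
        exact ⟨-(s * (γ 0 0 + β * γ 1 0)) - s' * (γ 0 1 + β * γ 1 1), by
          linear_combination -(γ 0 0 + β * γ 1 0) * hs - (γ 0 1 + β * γ 1 1) * hs'⟩
      set β' := (Quotient.out (Ideal.Quotient.mk (Ideal.span {p})
          (c' * (γ 0 1 + β * γ 1 1)) : R ⧸ Ideal.span {p}) : R) with hβ'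
      refine ⟨mk4 (γ 0 0 + β * γ 1 0) t (p * γ 1 0) (γ 1 1 - β' * γ 1 0) u
        (by rw [← hdet]; linear_combination (γ 1 0) * ht),
        some (Ideal.Quotient.mk (Ideal.span {p}) (c' * (γ 0 1 + β * γ 1 1))), ?_⟩
      have ht' := congrArg (algebraMap R F) ht
      simp only [map_sub, map_mul, map_add] at ht'
      apply Units.ext
      rw [Units.val_mul, Units.val_mul]
      simp only [rp, val_ab, ← hβ, ← hβ']
      ext i j
      fin_cases i <;> fin_cases j <;>
        simp [Matrix.mul_apply, Fin.sum_univ_two, val_mk4, hπ]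
      · linear_combination ht'
      · ring

variable [FaithfulSMul R F]

include hnu hπ in
/-- the representatives are inequivalent. -/
theorem rp_inj {i j : Option (R ⧸ Ideal.span {p})} {γ : GL (Fin 2) R}
    (h : rp R p π i = toF γ * rp R p π j) : i = j := by
  have hinj : Function.Injective (algebraMap R F) := FaithfulSMul.algebraMap_injective R F
  have h' := congrArg (fun g : GL (Fin 2) F => (g : Matrix (Fin 2) (Fin 2) F)) h
  simp only [Units.val_mul] at h'
  have e := fun a b => congrFun (congrFun h' a) b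
  obtain hi | ⟨b, rfl⟩ : i = none ∨ ∃ b, i = some b := by
    rcases i with _ | b
    · exact Or.inl rfl
    · exact Or.inr ⟨b, rfl⟩
  · obtain hj | ⟨b', rfl⟩ : j = none ∨ ∃ b, j = some b := by
      rcases j with _ | b
      · exact Or.inl rfl
      · exact Or.inr ⟨b, rfl⟩
    · rw [hi, hj]
    · exfalso
      subst hi
      have e0 := e 1 0
      have e1 := e 1 1
      simp only [rp, val_ainf, val_ab, Matrix.mul_apply, Fin.sum_univ_two] at e0 e1
      simp [hπ] at e0 e1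
      rw [← e0] at e1
      apply hnu
      refine IsUnit.of_mul_eq_one (γ 1 1) (hinj ?_)
      rw [map_mul, map_one]
      linear_combination -e1
  · obtain hj | ⟨b', rfl⟩ : j = none ∨ ∃ b, j = some b := by
      rcases j with _ | b
      · exact Or.inl rfl
      · exact Or.inr ⟨b, rfl⟩
    · exfalso
      subst hj
      have e0 := e 0 0
      simp only [rp, val_ainf, val_ab, Matrix.mul_apply, Fin.sum_univ_two] at e0
      simp [hπ] at e0
      apply hnu
      refine IsUnit.of_mul_eq_one (γ 0 0) (hinj ?_)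
      rw [map_mul, map_one]
      linear_combination -e0
    · have e0 := e 0 0
      have e1 := e 0 1
      simp only [rp, val_ab, Matrix.mul_apply, Fin.sum_univ_two] at e0 e1
      simp [hπ] at e0 e1
      have e2 : (b.out : R) - b'.out = p * γ 0 1 := by
        apply hinj
        rw [map_sub, map_mul, e1, ← e0]
        ring
      congr 1
      rw [← Ideal.Quotient.mk_out b, ← Ideal.Quotient.mk_out b', Ideal.Quotient.eq,
        Ideal.mem_span_singleton]
      exact ⟨_, e2⟩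

variable [Fintype (R ⧸ Ideal.span {p})]

include hnu hfield hπ in
/-- `T_π Φ` is left `GL₂(R)`-invariant if `Φ` is. -/
theorem tt_inv {Φ : Xi → GL (Fin 2) Rf → ℂ} (hΦ : Inv R F Φ) :
    Inv R F (tt p π Φ) := by
  classical
  intro γ
  choose γ' σ hσ using fun i => exists_swap hfield hπ γ i
  have hinj : Function.Injective σ := by
    intro i j hij
    have h1 := hσ i
    have h2 := hσ j
    rw [hij] at h1
    apply rp_inj (γ := γ' i * (γ' j)⁻¹) hnu hπ
    have h3 : rp R p π i = toF (γ' i) * rp R p π (σ j) * (toF γ)⁻¹ := by rw [← h1]; group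
    have h4 : rp R p π j = toF (γ' j) * rp R p π (σ j) * (toF γ)⁻¹ := by rw [← h2]; group
    rw [h3, h4]
    simp only [toF, map_mul, map_inv]
    group
  have hbij : Function.Bijective σ := Finite.injective_iff_bijective.mp hinj
  funext P h
  have e1 : tr (toF γ) (tt p π Φ) P h =
      ∑ i, tr (toF (F := F) γ) (tr (rp R p π i) Φ) P h := tt_eq_sum p π Φ _ _
  rw [e1, tt_eq_sum, ← hbij.sum_comp (fun j => tr (rp R p π j) Φ P h)]
  refine Finset.sum_congr rfl fun i _ => ?_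
  rw [← tr_mul, hσ i, tr_mul, hΦ (γ' i)]

end Inv

/-! ### The action on a Fourier expansion -/

section Fourier

theorem hasSum_of_eq {ι : Type*} {f g : ι → ℂ} {a : ℂ} (h : HasSum g a)
    (hfg : ∀ i, f i = g i) : HasSum f a := by
  rwa [funext hfg]

variable {R F Rf Ri Xi : Type*} [CommRing R] [Field F] [Algebra R F] [CommRing Rf] [Algebra F Rf]
  [CommRing Ri] [Algebra F Ri] [MulAction (GL (Fin 2) F) Xi]

/-- the unit of `R_f` defined by a unit of `F`. -/
abbrev uf (Rf : Type*) [CommRing Rf] [Algebra F Rf] (ξ : Fˣ) : Rfˣ :=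
  Units.map (algebraMap F Rf : F →* Rf) ξ

theorem uf_mul (a b : Fˣ) : uf Rf (a * b) = uf Rf a * uf Rf b := map_mul _ a b

theorem uf_inv (a : Fˣ) : uf Rf a⁻¹ = (uf Rf a)⁻¹ := map_inv _ a

/-- The data of an expansion at the cusp: coefficients `κ`, support condition `v`, Whittaker
function `W` at infinity, additive characters `θi`, `θf`. -/
structure Exp (R Rf Ri Xi : Type*) [CommRing R] [Algebra R F] [CommRing Rf] [Algebra F Rf]
    [CommRing Ri] [Algebra F Ri] [MulAction (GL (Fin 2) F) Xi] where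
  κ : Fˣ → ℂ
  v : Rfˣ → ℂ
  W : Xi → ℂ
  θi : AddChar Ri ℂ
  θf : AddChar Rf ℂ
  scalar_smul : ∀ (z : Fˣ) (P : Xi), (dg z z : GL (Fin 2) F) • P = P
  W_nn : ∀ (x : F) (P : Xi), W ((nn x : GL (Fin 2) F) • P) = θi (algebraMap F Ri x) * W P
  dual : ∀ x : F, (∀ r : R, θi (algebraMap F Ri (x * algebraMap R F r)) *
    θf (algebraMap F Rf (x * algebraMap R F r)) = 1) ↔ x ∈ Set.range (algebraMap R F)
  supp : ∀ ξ : Fˣ, κ ξ ≠ 0 → (ξ : F) ∈ Set.range (algebraMap R F)

namespace Exp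

variable (E : Exp (F := F) R Rf Ri Xi)

/-- the term of the expansion. -/
def term (κ : Fˣ → ℂ) (P : Xi) (b : Rf) (δ : Rfˣ) (ξ : Fˣ) : ℂ :=
  κ ξ * E.v (uf Rf ξ * δ) * E.W ((dg ξ 1 : GL (Fin 2) F) • P) * E.θf (algebraMap F Rf ξ * b)

/-- the product of the two characters on `F`. -/
def χ (x : F) : ℂ := E.θi (algebraMap F Ri x) * E.θf (algebraMap F Rf x)

theorem χ_add (x y : F) : E.χ (x + y) = E.χ x * E.χ y := by
  simp only [χ, map_add, AddChar.map_add_eq_mul]
  ring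

theorem χ_ne (x : F) : E.χ x ≠ 0 := by
  have h := E.χ_add x (-x)
  intro h0
  rw [h0, zero_mul, add_neg_cancel] at h
  simp [χ] at h

theorem χ_R (r : R) : E.χ (algebraMap R F r) = 1 := by
  have := (E.dual (algebraMap R F r)).mpr ⟨r, rfl⟩ 1
  rwa [map_one, mul_one] at this

open scoped Classical in
/-- the character sum over the residues modulo `π`. -/
theorem sum_χ {p : R} [Fintype (R ⧸ Ideal.span {p})] (x : F)
    (hx : x * algebraMap R F p ∈ Set.range (algebraMap R F)) :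
    ∑ b : R ⧸ Ideal.span {p}, E.χ (x * algebraMap R F b.out) =
      if x ∈ Set.range (algebraMap R F) then (Fintype.card (R ⧸ Ideal.span {p}) : ℂ) else 0 := by
  obtain ⟨y, hy⟩ := hx
  split_ifs with h
  · rw [Finset.sum_congr rfl fun b _ => ?_, Finset.sum_const, Finset.card_univ, nsmul_one]
    obtain ⟨x', rfl⟩ := h
    rw [← map_mul, E.χ_R]
  · have h' : ∃ r : R, E.χ (x * algebraMap R F r) ≠ 1 := by
      by_contra hcon
      push Not at hcon
      exact h ((E.dual x).mp hcon)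
    obtain ⟨r, hr⟩ := h'
    have key : ∀ b : R ⧸ Ideal.span {p}, E.χ (x * algebraMap R F
        ((Ideal.Quotient.mk (Ideal.span {p}) r + b : R ⧸ Ideal.span {p})).out) =
        E.χ (x * algebraMap R F r) * E.χ (x * algebraMap R F b.out) := by
      intro b
      obtain ⟨t, ht⟩ : p ∣ ((Ideal.Quotient.mk (Ideal.span {p}) r + b : R ⧸ Ideal.span {p})).out -
          (r + b.out) := by
        rw [← Ideal.mem_span_singleton, ← Ideal.Quotient.eq, Ideal.Quotient.mk_out, map_add,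
          Ideal.Quotient.mk_out]
      have ht' : ((Ideal.Quotient.mk (Ideal.span {p}) r + b : R ⧸ Ideal.span {p})).out =
          (r + b.out) + p * t := by linear_combination ht
      rw [ht', map_add, map_add, map_mul, mul_add, mul_add, E.χ_add, E.χ_add]
      have : x * (algebraMap R F p * algebraMap R F t) = algebraMap R F (y * t) := by
        rw [map_mul, hy]; ring
      rw [this, E.χ_R, mul_one]
    set S := ∑ b : R ⧸ Ideal.span {p}, E.χ (x * algebraMap R F b.out) with hS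
    have h1 : E.χ (x * algebraMap R F r) * S = S := by
      rw [hS, Finset.mul_sum]
      rw [← Equiv.sum_comp (Equiv.addLeft (Ideal.Quotient.mk (Ideal.span {p}) r))
        (fun b => E.χ (x * algebraMap R F b.out))]
      exact Finset.sum_congr rfl fun b _ => (key b).symm
    have h2 : (E.χ (x * algebraMap R F r) - 1) * S = 0 := by rw [sub_mul, h1, one_mul, sub_self]
    exact (mul_eq_zero.mp h2).resolve_left (sub_ne_zero.mpr hr)

/-- `Φ` has the expansion `E` with coefficients `κ`. -/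
def HasExp (κ : Fˣ → ℂ) (Φ : Xi → GL (Fin 2) Rf → ℂ) : Prop :=
  ∀ (P : Xi) (b : Rf) (δ : Rfˣ), HasSum (E.term κ P b δ) (Φ P (nn b * dg δ 1))

open scoped Classical in
/-- the coefficients of `T_π Φ`. -/
def heckeCoeff (R : Type*) [CommRing R] [Algebra R F] (q : ℂ) (π : Fˣ) (κ : Fˣ → ℂ) : Fˣ → ℂ :=
  fun ξ => κ (ξ * π⁻¹) +
    if (ξ : F) ∈ Set.range (algebraMap R F) then q * κ (ξ * π) else 0

theorem hasExp_tt {p : R} [Fintype (R ⧸ Ideal.span {p})] {π : Fˣ} (hπ : (π : F) = algebraMap R F p)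
    {Φ : Xi → GL (Fin 2) Rf → ℂ} (hΦ : E.HasExp E.κ Φ)
    (hz : ∀ P g (z : Rfˣ), Φ P (g * dg z z) = Φ P g) :
    E.HasExp (heckeCoeff R (Fintype.card (R ⧸ Ideal.span {p})) π E.κ) (tt p π Φ) := by
  classical
  intro P b δ
  -- the term at infinity
  have h1 : HasSum (E.term (fun ξ => E.κ (ξ * π⁻¹)) P b δ)
      (tr (ainf π) Φ P (nn b * dg δ 1)) := by
    have e1 : tr (ainf π) Φ P (nn b * dg δ 1) =
        Φ (ainf π • P) (nn (algebraMap F Rf π * b) * dg (uf Rf π * δ) 1) := by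
      show Φ _ _ = _
      congr 1
      rw [ainf, map_dg, ← mul_assoc, dg_mul_nn, mul_assoc, dg_mul_dg]
      simp
    rw [e1, ← (Equiv.mulRight π).hasSum_iff]
    convert hΦ (ainf π • P) (algebraMap F Rf π * b) (uf Rf π * δ) using 1
    funext ξ
    simp only [Function.comp_apply, Equiv.coe_mulRight, term, mul_inv_cancel_right, ainf]
    rw [← mul_smul, dg_mul_dg, mul_one, uf_mul, mul_assoc (uf Rf ξ), Units.val_mul,
      _root_.map_mul (algebraMap F Rf), mul_assoc (algebraMap F Rf ξ)]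
  -- the terms `α_b`
  have h2 : ∀ c : R ⧸ Ideal.span {p}, HasSum (fun ξ : Fˣ =>
      E.χ ((ξ : F) * algebraMap R F c.out) * E.term (fun ξ => E.κ (ξ * π)) P b δ ξ)
      (tr (ab π (algebraMap R F c.out)) Φ P (nn b * dg δ 1)) := by
    intro c
    set r : F := algebraMap R F c.out with hr
    have e1 : tr (ab π r) Φ P (nn b * dg δ 1) =
        Φ (ab π r • P) (nn ((algebraMap F Rf r + b) * algebraMap F Rf ((π⁻¹ : Fˣ) : F)) *
          dg (δ * (uf Rf π)⁻¹) 1) := by
      show Φ _ _ = _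
      rw [← hz (ab π r • P) (nn ((algebraMap F Rf r + b) * algebraMap F Rf ((π⁻¹ : Fˣ) : F)) *
          dg (δ * (uf Rf π)⁻¹) 1) (uf Rf π)]
      congr 1
      rw [ab, map_mul, map_nn, map_dg, mul_assoc (nn _) (dg (δ * _) _) (dg _ _), dg_mul_dg,
        inv_mul_cancel_right, one_mul, mul_assoc (nn _), ← mul_assoc (dg _ _) (nn _), dg_mul_nn,
        mul_assoc (nn _) (dg _ _) (dg _ _), dg_mul_dg, ← mul_assoc, nn_mul_nn]
      simp [add_mul]
    rw [e1, ← (Equiv.mulRight π⁻¹).hasSum_iff]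
    convert hΦ (ab π r • P) ((algebraMap F Rf r + b) * algebraMap F Rf ((π⁻¹ : Fˣ) : F))
      (δ * (uf Rf π)⁻¹) using 1
    funext ξ
    simp only [Function.comp_apply, Equiv.coe_mulRight, term, inv_mul_cancel_right]
    have e2 : (dg ξ 1 : GL (Fin 2) F) • ab π r • P =
        (nn ((ξ : F) * ((π⁻¹ : Fˣ) : F) * r) : GL (Fin 2) F) •
          (dg (ξ * π⁻¹) 1 : GL (Fin 2) F) • P := by
      conv_rhs => rw [← E.scalar_smul π P]
      rw [ab, ← mul_smul, ← mul_smul, ← mul_smul]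
      congr 1
      rw [← mul_assoc, dg_mul_nn, mul_assoc (nn _) (dg _ _) (dg _ _), dg_mul_dg,
        mul_assoc (nn _) (dg _ _) (dg _ _), dg_mul_dg]
      simp [mul_comm, mul_left_comm, mul_assoc]
    rw [e2, E.W_nn]
    have e3 : uf Rf ξ * (δ * (uf Rf π)⁻¹) = uf Rf (ξ * π⁻¹) * δ := by
      rw [uf_mul, uf_inv, mul_comm δ, mul_assoc]
    rw [e3]
    have e4 : algebraMap F Rf ξ * ((algebraMap F Rf r + b) * algebraMap F Rf ((π⁻¹ : Fˣ) : F)) =
        algebraMap F Rf (((ξ * π⁻¹ : Fˣ) : F) * r) + algebraMap F Rf ((ξ * π⁻¹ : Fˣ) : F) * b := by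
      rw [Units.val_mul, map_mul, map_mul]; ring
    rw [e4, AddChar.map_add_eq_mul, χ]
    rw [Units.val_mul]
    ring
  have h3 := h1.add (hasSum_sum fun c (_ : c ∈ Finset.univ) => h2 c)
  show HasSum _ (tr (ainf π) Φ P (nn b * dg δ 1) +
    ∑ c : R ⧸ Ideal.span {p}, tr (ab π (algebraMap R F c.out)) Φ P (nn b * dg δ 1))
  refine hasSum_of_eq h3 (fun ξ => ?_)
  rw [← Finset.sum_mul]
  simp only [term, heckeCoeff]
  by_cases hk : E.κ (ξ * π) = 0
  · simp [hk]
  · have h4 := E.supp _ hk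
    rw [Units.val_mul, hπ] at h4
    rw [E.sum_χ _ h4]
    split_ifs
    · ring
    · ring

/-- **The eigenvalue on `n(b) diag(δ, 1)`.** -/
theorem tt_of_expansion {p : R} [Fintype (R ⧸ Ideal.span {p})] {π : Fˣ}
    (hπ : (π : F) = algebraMap R F p) {Φ : Xi → GL (Fin 2) Rf → ℂ} (hΦ : E.HasExp E.κ Φ)
    (hz : ∀ P g (z : Rfˣ), Φ P (g * dg z z) = Φ P g) {μ : ℂ}
    (hμ : ∀ ξ : Fˣ, heckeCoeff R (Fintype.card (R ⧸ Ideal.span {p})) π E.κ ξ = μ * E.κ ξ)
    (P : Xi) (b : Rf) (δ : Rfˣ) : tt p π Φ P (nn b * dg δ 1) = μ * Φ P (nn b * dg δ 1) := by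
  refine (E.hasExp_tt hπ hΦ hz P b δ).unique ?_
  have h := (hΦ P b δ).mul_left μ
  refine hasSum_of_eq h (fun ξ => ?_)
  simp only [term, hμ]
  ring

end Exp

/-- **The eigenvalue everywhere** from `GL₂(R_f) = Γ B U`. -/
theorem tt_eq {p : R} (hnu : ¬ IsUnit p) (hfield : ∀ a : R, ¬ p ∣ a → ∃ b : R, p ∣ a * b - 1)
    [FaithfulSMul R F] [Fintype (R ⧸ Ideal.span {p})] {π : Fˣ} (hπ : (π : F) = algebraMap R F p)
    (E : Exp (F := F) R Rf Ri Xi) {Φ : Xi → GL (Fin 2) Rf → ℂ} (hΦ : E.HasExp E.κ Φ)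
    (hz : ∀ P g (z : Rfˣ), Φ P (g * dg z z) = Φ P g) (hΓ : Inv R F Φ)
    (U : Set (GL (Fin 2) Rf)) (hU : ∀ u ∈ U, ∀ P g, Φ P (g * u) = Φ P g)
    (hd : ∀ g : GL (Fin 2) Rf, ∃ (γ : GL (Fin 2) R) (b : Rf) (δ z : Rfˣ), ∃ u ∈ U,
      GeneralLinearGroup.map (algebraMap F Rf) (toF γ) * g = nn b * dg δ 1 * dg z z * u)
    {μ : ℂ}
    (hμ : ∀ ξ : Fˣ, Exp.heckeCoeff R (Fintype.card (R ⧸ Ideal.span {p})) π E.κ ξ = μ * E.κ ξ)
    (P : Xi) (g : GL (Fin 2) Rf) : tt p π Φ P g = μ * Φ P g := by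
  obtain ⟨γ, b, δ, z, u, hu, hg⟩ := hd g
  have key : ∀ Ψ : Xi → GL (Fin 2) Rf → ℂ, Inv R F Ψ → (∀ P g (z : Rfˣ), Ψ P (g * dg z z) = Ψ P g) →
      (∀ u ∈ U, ∀ P g, Ψ P (g * u) = Ψ P g) →
      Ψ P g = Ψ ((toF γ : GL (Fin 2) F) • P) (nn b * dg δ 1) := by
    intro Ψ h1 h2 h3
    have e1 := congrFun (congrFun (h1 γ) P) g
    rw [← e1]
    show Ψ _ _ = _
    rw [hg, h3 u hu, h2]
  rw [key _ (tt_inv hnu hfield hπ hΓ), key _ hΓ hz hU]
  · exact E.tt_of_expansion hπ hΦ hz hμ _ _ _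
  · intro P g z
    show Φ _ _ + ∑ _, Φ _ _ = Φ _ _ + ∑ _, Φ _ _
    simp only [← mul_assoc, hz]
  · intro u hu P g
    show Φ _ _ + ∑ _, Φ _ _ = Φ _ _ + ∑ _, Φ _ _
    simp only [← mul_assoc, hU u hu]

end Fourier

end Fermat.Agent.LT.HeckeT

end
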