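import Fermat.Agent.LT.Theta11.SGauss
import Fermat.Agent.LT.Th.Law

/-!
# The transformation law in `N`-adic form

`∑_{x ∈ T(h, k)} K (γ P) x = const * ∑_{x ∈ T(h / d, k)} K P x` for `γ = (a b; c d) ∈ SL₂(𝓞 F[1/N])`
with `b q(h) / d` and `c d / q(h) / N ^ (2 k + 2 m₀)` integral at `N`; the constant is the Gauss sum
over `𝓞 E / D 𝓞 E`, `D = d 𝓞 F[1/N] ∩ 𝓞 F`, divided by `ν d`.
-/

set_option autoImplicit false
set_option linter.unusedSectionVars false

namespace Fermat.Agent.LT.SAd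

open NumberField Fermat.Agent.LT.Th

section Main

variable {F E : Type*} [Field F] [NumberField F] [Field E] [NumberField E] [Algebra F E]
  {N : ℕ} [NeZero N] {Pt : Type*}

local notation "ι" => algebraMap F E

/-- compatibility of an abstract theta kernel with `E / F`. -/
structure IsNormKernel (κ : Kernel F E Pt) (σ : E ≃ₐ[F] E) : Prop where
  q_eq : ∀ x, κ.q x = Algebra.norm F x
  B_eq : ∀ x y, κ.B x y = Algebra.trace F E (x * σ y)
  e_eq : ∀ r, κ.e r = ech r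
  conj_conj : ∀ x, σ (σ x) = x
  norm_eq : ∀ x : E, ι (Algebra.norm F x) = x * σ x

/-- the dual of a lattice for the form `Tr_{E/ℚ} (x σ y)`. -/
def dualG (σ : E ≃ₐ[F] E) (L : Set E) : AddSubgroup E where
  carrier := Dual σ L
  zero_mem' := by
    intro x _
    exact ⟨0, by rw [map_zero, mul_zero, map_zero]; simp⟩
  add_mem' := by
    intro y z hy hz x hx
    obtain ⟨m, hm⟩ := hy x hx
    obtain ⟨n, hn⟩ := hz x hx
    exact ⟨m + n, by rw [map_add, mul_add, map_add, ← hm, ← hn]; push_cast; ring⟩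
  neg_mem' := by
    intro y hy x hx
    obtain ⟨m, hm⟩ := hy x hx
    exact ⟨-m, by rw [map_neg, mul_neg, map_neg, ← hm]; push_cast; ring⟩

theorem mem_dualG {σ : E ≃ₐ[F] E} {L : Set E} {y : E} :
    y ∈ dualG σ L ↔ ∀ x ∈ L, ∃ n : ℤ, (n : ℚ) = Algebra.trace ℚ E (x * σ y) := Iff.rfl

/-- the lattice `Lam N g` as an additive group. -/
def LamG (N : ℕ) (g : E) : AddSubgroup E := (Lam N g).toAddSubgroup

theorem mem_LamG {g x : E} : x ∈ LamG N g ↔ x ∈ Lam N g := Iff.rfl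

variable {κ : Kernel F E Pt} {σ : E ≃ₐ[F] E} {k m₀ : ℕ} {a b c d : F} {h : E}

theorem ech_trace_eq_one_iff {x : E} :
    ech (Algebra.trace F E x) = 1 ↔ ∃ n : ℤ, (n : ℚ) = Algebra.trace ℚ E x := by
  rw [ech_eq_one_iff, Algebra.trace_trace]

/-- all hypotheses of the abstract law. -/
theorem Good.adm (H : Good N k m₀ a b c d h) (hκ : IsNormKernel κ σ) (hD : DiffBound E N m₀)
    {h' : E} (h1 : h' ∈ T N (h / ι d) k) :
    κ.Adm a b c d h' (LamG N (h * (N : E) ^ k)) (LamG N (h * (N : E) ^ k / ι d))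
      (dualG σ (Lam N (h * (N : E) ^ k / ι d))) where
  det := H.det
  d0 := H.d_ne
  dmem := by
    intro x hx
    rw [Algebra.smul_def]
    exact H.cond1 hx
  amem := by
    intro x hx
    rw [Algebra.smul_def]
    exact H.cond2 hx
  cmem := by
    intro y hy
    rw [Algebra.smul_def]
    exact H.cond3 σ hκ.conj_conj hκ.norm_eq hD hy
  dual := by
    intro x hx y hy
    rw [hκ.e_eq, hκ.B_eq, ech_trace_eq_one_iff]
    exact hy x hx
  e1 := by
    intro x hx y hy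
    rw [hκ.e_eq, hκ.B_eq]
    apply ech_eq_one_of_isIntegral
    have h2 := Algebra.isIntegral_trace (L := F)
      (H.cond4 σ hκ.conj_conj hκ.norm_eq hx hy)
    rwa [← Algebra.smul_def, map_smul, smul_eq_mul] at h2
  e2 := by
    intro x hx
    rw [hκ.e_eq, hκ.q_eq]
    exact ech_eq_one_of_isIntegral (H.cond5 σ hκ.conj_conj hκ.norm_eq hx)
  e3 := by
    intro y hy
    rw [hκ.e_eq, hκ.q_eq]
    exact ech_eq_one_of_isIntegral (H.cond6 σ hκ.conj_conj hκ.norm_eq hD hy)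
  e4 := by
    rw [hκ.e_eq, hκ.q_eq]
    exact ech_eq_one_of_isIntegral (H.cond7 σ hκ.conj_conj hκ.norm_eq h1)
  e5 := by
    intro x hx
    rw [hκ.e_eq, hκ.B_eq]
    apply ech_eq_one_of_isIntegral
    have h2 := Algebra.isIntegral_trace (L := F)
      (H.cond8 σ hκ.conj_conj hκ.norm_eq h1 hx)
    rwa [← Algebra.smul_def, map_smul, smul_eq_mul] at h2

/-- a good exponent for the representatives. -/
theorem exists_J (N : ℕ) [NeZero N] (g : E) (s : F) : ∃ J : ℕ,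
    (∀ x : E, IsIntegral ℤ x → (N : E) ^ J * x ∈ Lam N g) ∧ (N : F) ^ (2 * J) * s ∈ AS F N := by
  obtain ⟨j, hj⟩ := exists_pow_mul_mem_Lam N g
  obtain ⟨i, hi⟩ := exists_pow_mul_mem_AS N s
  refine ⟨i + j, ?_, ?_⟩
  · intro x hx
    have h1 := hj ((N : E) ^ i * x) (((isIntegral_natCast N).pow i).mul hx)
    have : (N : E) ^ (i + j) * x = (N : E) ^ j * ((N : E) ^ i * x) := by ring
    rwa [this]
  · have : (N : F) ^ (2 * (i + j)) * s = (N : F) ^ (i + 2 * j) * ((N : F) ^ i * s) := by ring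
    rw [this]
    exact (AS F N).mul_mem ((AS F N).pow_mem (natCast_mem _ N) _) hi

theorem reps (hd : d ≠ 0) (hd' : d ∈ RS F N) {g : E} {J : ℕ}
    (hJ : ∀ x : E, IsIntegral ℤ x → (N : E) ^ J * x ∈ Lam N g) :
    Kernel.Reps d (LamG N g) (LamG N (g / ι d))
      (fun i : 𝓞 E ⧸ (dId N d).map (algebraMap (𝓞 F) (𝓞 E)) =>
        (N : E) ^ J * algebraMap (𝓞 E) E (Quotient.out i)) where
  mem := fun i => hJ _ (co_int _)
  ex := by
    intro x hx
    obtain ⟨i, ⟨y, hy, hxy⟩, -⟩ := exists_unique_rep hd hd' hJ hx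
    refine ⟨i, y, hy, ?_⟩
    rw [Algebra.smul_def, ← hxy]
    ring
  uniq := by
    rintro i j ⟨m, hm, hij⟩
    obtain ⟨i', -, hi'⟩ := exists_unique_rep hd hd' hJ (hJ _ (co_int (Quotient.out i)))
    have h1 := hi' i ⟨0, (Lam N _).zero_mem, by rw [mul_zero, sub_self]⟩
    have h2 := hi' j ⟨m, hm, by rw [Algebra.smul_def] at hij; exact hij⟩
    rw [h1, h2]

/-- the finite sum is a Gauss sum. -/
theorem sum_eq_gauss (hκ : IsNormKernel κ σ) (q : QD (𝓞 F) (𝓞 E))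
    (hqd : ∀ x : 𝓞 E, algebraMap (𝓞 F) F (q.nm x) = Algebra.norm F (algebraMap (𝓞 E) E x)) {J : ℕ}
    [Fintype (𝓞 E ⧸ (dId N d).map (algebraMap (𝓞 F) (𝓞 E)))] :
    ∑ i : 𝓞 E ⧸ (dId N d).map (algebraMap (𝓞 F) (𝓞 E)),
      κ.e (b * κ.q ((N : E) ^ J * algebraMap (𝓞 E) E (Quotient.out i)) / d) =
      gauss q ((dId N d).map (algebraMap (𝓞 F) (𝓞 E))) (echI ((N : F) ^ (2 * J) * (b / d))) := by
  unfold gauss qs
  refine Finset.sum_congr rfl fun i _ => ?_
  change _ = echI _ (q.nm (Quotient.out i))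
  rw [hκ.e_eq, hκ.q_eq, echI_apply, hqd]
  congr 1
  have hN : Algebra.norm F ((N : E) ^ J) = (N : F) ^ (2 * J) := by
    apply (algebraMap F E).injective
    rw [hκ.norm_eq, map_pow, map_natCast, map_pow, map_natCast]
    ring
  rw [map_mul, hN]
  ring

/-- `T N h k` is a coset of the lattice. -/
def cosetEquiv {h x₀ : E} {k : ℕ} (h0 : x₀ ∈ T N h k) : LamG N (h * (N : E) ^ k) ≃ T N h k where
  toFun x := ⟨x₀ + x, (mem_T_iff_sub h0).2 (by rw [add_sub_cancel_left]; exact x.2)⟩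
  invFun x := ⟨x - x₀, (mem_T_iff_sub h0).1 x.2⟩
  left_inv x := Subtype.ext (by simp)
  right_inv x := Subtype.ext (by simp)

/-- **(C0), with the constant as a Gauss sum.** -/
theorem Good.law (H : Good N k m₀ a b c d h) (hκ : IsNormKernel κ σ) (hD : DiffBound E N m₀)
    {m₁ : ℕ} (hDF : DiffBound F N m₁) (q : QD (𝓞 F) (𝓞 E))
    (hqd : ∀ x : 𝓞 E, algebraMap (𝓞 F) F (q.nm x) = Algebra.norm F (algebraMap (𝓞 E) E x))
    [Fintype (𝓞 E ⧸ (dId N d).map (algebraMap (𝓞 F) (𝓞 E)))] {G : ℂ}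
    (hG : ∀ e : AddChar (𝓞 F) ℂ, cond e = dId N d →
      gauss q ((dId N d).map (algebraMap (𝓞 F) (𝓞 E))) e = G)
    {C : ℂ} (hP : κ.Poisson (LamG N (h * (N : E) ^ k / ι d))
      (dualG σ (Lam N (h * (N : E) ^ k / ι d))) C) (P : Pt) :
    Summable (fun x : T N h k => κ.K (κ.act b c d P) x) ∧
    ∑' x : T N h k, κ.K (κ.act b c d P) x =
      (κ.ν d)⁻¹ * G * ∑' x : T N (h / ι d) k, κ.K P x := by
  have hd0 : ι d ≠ 0 := (map_ne_zero _).2 H.d_ne
  obtain ⟨h', h1⟩ := exists_mem_T N (div_ne_zero H.h_ne hd0) k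
  obtain ⟨J, hJ, hJ'⟩ := exists_J N (h * (N : E) ^ k) (b / d)
  have hlaw := (H.adm hκ hD h1).law (reps H.d_ne H.d_mem hJ) hP P
  rw [sum_eq_gauss hκ q hqd, hG _ (cond_echI hDF H.a_mem H.b_mem H.c_mem H.d_ne H.det hJ')] at hlaw
  have hdh : d • h' ∈ T N h k := by
    rw [Algebra.smul_def]
    exact H.mem_T_mul h1
  have hg : h / ι d * (N : E) ^ k = h * (N : E) ^ k / ι d := by ring
  have e2 : ∑' x : T N (h / ι d) k, κ.K P x =
      ∑' u : LamG N (h * (N : E) ^ k / ι d), κ.K P (h' + u) := by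
    rw [← hg, ← (cosetEquiv h1).tsum_eq]
    rfl
  refine ⟨?_, ?_⟩
  · rw [← (cosetEquiv hdh).summable_iff]
    exact hlaw.1
  · rw [← (cosetEquiv hdh).tsum_eq, e2]
    exact hlaw.2

end Main

end Fermat.Agent.LT.SAd
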