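import Fermat.Agent.LT.Theta11.SCond
import Fermat.Agent.LT.Th.GaussA

/-!
# The finite sum of the transformation law as a Gauss sum over `𝓞 E / D 𝓞 E`

`D = d RS ∩ 𝓞 F`.
-/

set_option autoImplicit false
set_option linter.unusedSectionVars false

namespace Fermat.Agent.LT.SAd

open NumberField Fermat.Agent.LT.Th

/-- the coercion `𝓞 F → F` as a ring homomorphism. -/
local notation "co" => algebraMap (𝓞 _) _

theorem co_int {F : Type*} [Field F] (x : 𝓞 F) : IsIntegral ℤ (algebraMap (𝓞 F) F x) := x.2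

section DIdeal

variable {F : Type*} [Field F] [CharZero F] {N : ℕ}

/-- the ideal `d RS ∩ 𝓞 F`. -/
def dId (N : ℕ) (d : F) : Ideal (𝓞 F) where
  carrier := {t | d⁻¹ * algebraMap (𝓞 F) F t ∈ RS F N}
  zero_mem' := by
    change d⁻¹ * algebraMap (𝓞 F) F 0 ∈ RS F N
    rw [map_zero, mul_zero]
    exact (RS F N).zero_mem
  add_mem' := by
    intro x y hx hy
    change d⁻¹ * algebraMap (𝓞 F) F (x + y) ∈ RS F N
    rw [map_add, mul_add]
    exact (RS F N).add_mem hx hy
  smul_mem' := by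
    intro c x hx
    change d⁻¹ * algebraMap (𝓞 F) F (c * x) ∈ RS F N
    have : d⁻¹ * algebraMap (𝓞 F) F (c * x) =
        algebraMap (𝓞 F) F c * (d⁻¹ * algebraMap (𝓞 F) F x) := by
      rw [map_mul]; ring
    rw [this]
    exact (RS F N).mul_mem (mem_RS_of_isIntegral (co_int c)) hx

theorem mem_dId {d : F} {t : 𝓞 F} : t ∈ dId N d ↔ d⁻¹ * algebraMap (𝓞 F) F t ∈ RS F N := Iff.rfl

theorem RS_inv_pow_mul [NeZero N] {x : F} (j : ℕ) (hx : (N : F) ^ j * x ∈ RS F N) :
    x ∈ RS F N := by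
  obtain ⟨i, hi⟩ := hx
  refine ⟨i + j, ?_⟩
  rw [pow_add, mul_assoc]
  exact hi

theorem exists_natCast_mem_dId [Algebra ℚ F] [FiniteDimensional ℚ F] (N : ℕ) (d : F) :
    ∃ n : ℕ, n ≠ 0 ∧ n.Coprime N ∧ (n : 𝓞 F) ∈ dId N d := by
  obtain ⟨n, hn, hc, h⟩ := exists_mul_mem_RS N d⁻¹
  refine ⟨n, hn, hc, ?_⟩
  rw [mem_dId, map_natCast, mul_comm]
  exact h

end DIdeal

section Map

variable {F E : Type*} [Field F] [NumberField F] [Field E] [NumberField E] [Algebra F E]
  {N : ℕ} [NeZero N]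

local notation "ι" => algebraMap F E

theorem mem_map_dId {d : F} (hd : d ≠ 0) (hd' : d ∈ RS F N) {x : 𝓞 E} :
    x ∈ (dId N d).map (algebraMap (𝓞 F) (𝓞 E)) ↔ (ι d)⁻¹ * algebraMap (𝓞 E) E x ∈ RS E N := by
  constructor
  · intro hx
    refine Submodule.span_induction (R := 𝓞 E) (M := 𝓞 E)
      (p := fun u _ => (ι d)⁻¹ * algebraMap (𝓞 E) E u ∈ RS E N) ?_ ?_ ?_ ?_ hx
    · rintro _ ⟨t, ht, rfl⟩
      have h1 := map_mem_RS (E := E) (N := N) (mem_dId.1 ht)
      rw [map_mul, map_inv₀] at h1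
      rwa [show algebraMap (𝓞 E) E (algebraMap (𝓞 F) (𝓞 E) t) = ι (algebraMap (𝓞 F) F t) from rfl]
    · change (ι d)⁻¹ * algebraMap (𝓞 E) E 0 ∈ RS E N
      rw [map_zero, mul_zero]
      exact (RS E N).zero_mem
    · intro a b _ _ ha hb
      change (ι d)⁻¹ * algebraMap (𝓞 E) E (a + b) ∈ RS E N
      rw [map_add, mul_add]
      exact (RS E N).add_mem ha hb
    · intro r a _ ha
      have : (ι d)⁻¹ * algebraMap (𝓞 E) E (r • a) =
          algebraMap (𝓞 E) E r * ((ι d)⁻¹ * algebraMap (𝓞 E) E a) := by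
        rw [smul_eq_mul, map_mul]; ring
      rw [this]
      exact (RS E N).mul_mem (mem_RS_of_isIntegral (co_int r)) ha
  · intro hx
    obtain ⟨n, hn, hc, hnd⟩ := exists_natCast_mem_dId N d
    obtain ⟨j, hj⟩ := hd'
    obtain ⟨i, hi⟩ := hx
    set I := (dId N d).map (algebraMap (𝓞 F) (𝓞 E)) with hI
    have h1 : (n : 𝓞 E) * x ∈ I := by
      refine I.mul_mem_right _ ?_
      have := Ideal.mem_map_of_mem (algebraMap (𝓞 F) (𝓞 E)) hnd
      rwa [map_natCast] at this
    have h2 : (N : 𝓞 E) ^ (j + i) * x ∈ I := by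
      let t₀ : 𝓞 F := ⟨(N : F) ^ j * d, hj⟩
      let y₀ : 𝓞 E := ⟨(N : E) ^ i * ((ι d)⁻¹ * algebraMap (𝓞 E) E x), hi⟩
      have ht : t₀ ∈ dId N d := by
        rw [mem_dId]
        have : d⁻¹ * algebraMap (𝓞 F) F t₀ = (N : F) ^ j := by
          change d⁻¹ * ((N : F) ^ j * d) = _
          field_simp
        rw [this]
        exact (RS F N).pow_mem (natCast_mem _ N) _
      have h3 : (N : 𝓞 E) ^ (j + i) * x = algebraMap (𝓞 F) (𝓞 E) t₀ * y₀ := by
        apply FaithfulSMul.algebraMap_injective (𝓞 E) E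
        have hd0 : ι d ≠ 0 := (map_ne_zero _).2 hd
        have e1 : algebraMap (𝓞 E) E (algebraMap (𝓞 F) (𝓞 E) t₀) = ι ((N : F) ^ j * d) := rfl
        have e2 : algebraMap (𝓞 E) E y₀ = (N : E) ^ i * ((ι d)⁻¹ * algebraMap (𝓞 E) E x) := rfl
        rw [map_mul, map_mul, map_pow, map_natCast, e1, e2, map_mul, map_pow, map_natCast]
        field_simp
        ring
      rw [h3]
      exact I.mul_mem_right _ (Ideal.mem_map_of_mem _ ht)
    obtain ⟨u, v, huv⟩ : IsCoprime (n : ℤ) ((N : ℤ) ^ (j + i)) :=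
      (Nat.isCoprime_iff_coprime.2 hc).pow_right
    have h4 : x = (u : 𝓞 E) * ((n : 𝓞 E) * x) + (v : 𝓞 E) * ((N : 𝓞 E) ^ (j + i) * x) := by
      have : ((u * n + v * N ^ (j + i) : ℤ) : 𝓞 E) = 1 := by rw [huv]; simp
      push_cast at this
      calc x = 1 * x := (one_mul x).symm
        _ = ((u : 𝓞 E) * n + v * (N : 𝓞 E) ^ (j + i)) * x := by rw [this]
        _ = _ := by ring
    rw [h4]
    exact I.add_mem (I.mul_mem_left _ h1) (I.mul_mem_left _ h2)

theorem dId_ne_bot (N : ℕ) (d : F) : dId N d ≠ ⊥ := by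
  obtain ⟨n, hn, -, h⟩ := exists_natCast_mem_dId N d
  intro h0
  rw [h0, Ideal.mem_bot] at h
  exact hn (by exact_mod_cast h)

end Map

section Char

variable {F : Type*} [Field F] [NumberField F] {N : ℕ} [NeZero N]

/-- the additive character `r ↦ exp (2 π i Tr r)` of `F`. -/
noncomputable def ech (r : F) : ℂ :=
  Complex.exp (2 * Real.pi * Complex.I * ((Algebra.trace ℚ F r : ℚ) : ℂ))

theorem ech_add (r s : F) : ech (r + s) = ech r * ech s := by
  unfold ech
  rw [← Complex.exp_add, map_add]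
  push_cast
  ring_nf

theorem ech_zero : ech (0 : F) = 1 := by
  unfold ech
  rw [map_zero]
  simp

theorem ech_eq_one_iff {r : F} : ech r = 1 ↔ ∃ n : ℤ, (n : ℚ) = Algebra.trace ℚ F r := by
  unfold ech
  rw [Complex.exp_eq_one_iff]
  have hpi : (2 * Real.pi * Complex.I : ℂ) ≠ 0 := Complex.two_pi_I_ne_zero
  constructor
  · rintro ⟨n, hn⟩
    refine ⟨n, ?_⟩
    have h1 : ((Algebra.trace ℚ F r : ℚ) : ℂ) = (n : ℂ) := by
      apply mul_left_cancel₀ hpi
      rw [hn]; ring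
    have h2 : ((Algebra.trace ℚ F r : ℚ) : ℂ) = ((n : ℚ) : ℂ) := by rw [h1]; simp
    exact (Rat.cast_injective h2).symm
  · rintro ⟨n, hn⟩
    refine ⟨n, ?_⟩
    rw [← hn]
    push_cast
    ring

theorem ech_eq_one_of_isIntegral {r : F} (hr : IsIntegral ℤ r) : ech r = 1 := by
  rw [ech_eq_one_iff]
  exact isIntegral_rat (Algebra.isIntegral_trace hr)

/-- the character `t ↦ e (s t)` of `𝓞 F`. -/
noncomputable def echI (s : F) : AddChar (𝓞 F) ℂ where
  toFun t := ech (s * algebraMap (𝓞 F) F t)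
  map_zero_eq_one' := by
    rw [map_zero, mul_zero, ech_zero]
  map_add_eq_mul' := by
    intro a b
    rw [map_add, mul_add, ech_add]

theorem echI_apply (s : F) (t : 𝓞 F) : echI s t = ech (s * algebraMap (𝓞 F) F t) := rfl

/-- the conductor of `t ↦ e (b N ^ (2 J) t / d)` is `dId N d`. -/
theorem cond_echI {m : ℕ} (hD : DiffBound F N m) {a b c d : F} (ha : a ∈ RS F N) (hb : b ∈ RS F N)
    (hc : c ∈ RS F N) (hd : d ≠ 0) (hdet : a * d - b * c = 1) {J : ℕ}
    (hJ : (N : F) ^ J * (b / d) ∈ AS F N) :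
    cond (echI ((N : F) ^ J * (b / d))) = dId N d := by
  ext t
  rw [mem_cond, mem_dId]
  constructor
  · intro h
    have h1 : IsIntegral ℤ ((N : F) ^ m * ((N : F) ^ J * (b / d) * algebraMap (𝓞 F) F t)) := by
      refine hD _ (fun x hx => ?_)
      have h2 := h (⟨x, hx⟩ : 𝓞 F)
      rw [echI_apply, ech_eq_one_iff] at h2
      obtain ⟨n, hn⟩ := h2
      refine ⟨n, ?_⟩
      rw [hn]
      congr 1
      have : algebraMap (𝓞 F) F (⟨x, hx⟩ * t) = x * algebraMap (𝓞 F) F t := rfl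
      rw [this]
      ring
    have h2 : b / d * algebraMap (𝓞 F) F t ∈ RS F N := by
      apply RS_inv_pow_mul (m + J)
      have : (N : F) ^ (m + J) * (b / d * algebraMap (𝓞 F) F t) =
          (N : F) ^ m * ((N : F) ^ J * (b / d) * algebraMap (𝓞 F) F t) := by ring
      rw [this]
      exact mem_RS_of_isIntegral h1
    have h3 : d⁻¹ * algebraMap (𝓞 F) F t =
        a * algebraMap (𝓞 F) F t - c * (b / d * algebraMap (𝓞 F) F t) := by
      have : algebraMap (𝓞 F) F t = (a * d - b * c) * algebraMap (𝓞 F) F t := by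
        rw [hdet, one_mul]
      field_simp
      linear_combination this
    rw [h3]
    exact (RS F N).sub_mem ((RS F N).mul_mem ha (mem_RS_of_isIntegral (co_int t)))
      ((RS F N).mul_mem hc h2)
  · intro h r
    rw [echI_apply]
    apply ech_eq_one_of_isIntegral
    refine isIntegral_of_mem (N := N) ?_ ?_
    · have : (N : F) ^ J * (b / d) * algebraMap (𝓞 F) F (r * t) =
          (N : F) ^ J * b * algebraMap (𝓞 F) F r * (d⁻¹ * algebraMap (𝓞 F) F t) := by
        rw [map_mul]; ring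
      rw [this]
      exact (RS F N).mul_mem ((RS F N).mul_mem ((RS F N).mul_mem
        ((RS F N).pow_mem (natCast_mem _ N) _) hb) (mem_RS_of_isIntegral (co_int r))) h
    · exact (AS F N).mul_mem hJ (mem_AS_of_isIntegral (co_int (r * t)))

end Char

section Reps

variable {F E : Type*} [Field F] [NumberField F] [Field E] [NumberField E] [Algebra F E]
  {N : ℕ} [NeZero N]

local notation "ι" => algebraMap F E

/-- representatives of `Λ / d Λ₂`. -/
theorem exists_unique_rep {g : E} {d : F} (hd : d ≠ 0) (hd' : d ∈ RS F N) {J : ℕ}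
    (hJ : ∀ x : E, IsIntegral ℤ x → (N : E) ^ J * x ∈ Lam N g) {x : E} (hx : x ∈ Lam N g) :
    ∃! i : 𝓞 E ⧸ (dId N d).map (algebraMap (𝓞 F) (𝓞 E)),
      ∃ y ∈ Lam N (g / ι d), x - (N : E) ^ J * algebraMap (𝓞 E) E (Quotient.out i) = ι d * y := by
  have hd0 : ι d ≠ 0 := (map_ne_zero _).2 hd
  set I := (dId N d).map (algebraMap (𝓞 F) (𝓞 E)) with hI
  obtain ⟨n, hn, hc, hnd⟩ := exists_natCast_mem_dId N d
  obtain ⟨i, hi⟩ := hx.1
  obtain ⟨u, v, huv⟩ : IsCoprime (n : ℤ) ((N : ℤ) ^ (J + i)) :=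
    (Nat.isCoprime_iff_coprime.2 hc).pow_right
  let x₀ : 𝓞 E := ⟨(N : E) ^ i * x, hi⟩
  refine ⟨Ideal.Quotient.mk I ((v : 𝓞 E) * x₀), ?_, ?_⟩
  · -- existence
    set o : 𝓞 E := Quotient.out (Ideal.Quotient.mk I ((v : 𝓞 E) * x₀)) with ho
    have h1 : o - (v : 𝓞 E) * x₀ ∈ I := by
      rw [← Ideal.Quotient.eq, ho, Ideal.Quotient.mk_out]
    have h2 := (mem_map_dId hd hd').1 h1
    have h3 : (ι d)⁻¹ * (n : E) ∈ RS E N := by
      have := map_mem_RS (E := E) (N := N) (mem_dId.1 hnd)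
      rwa [map_mul, map_inv₀, map_natCast, map_natCast] at this
    have hin : (N : E) ^ J * algebraMap (𝓞 E) E o ∈ Lam N g := hJ _ (co_int o)
    have hone : ((u * n + v * N ^ (J + i) : ℤ) : E) = 1 := by rw [huv]; simp
    push_cast at hone
    have key : x - (N : E) ^ J * algebraMap (𝓞 E) E o = (u : E) * (n : E) * x -
        (N : E) ^ J * algebraMap (𝓞 E) E (o - (v : 𝓞 E) * x₀) := by
      have e1 : algebraMap (𝓞 E) E (o - (v : 𝓞 E) * x₀) = algebraMap (𝓞 E) E o - (v : E) * ((N : E) ^ i * x) := by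
        rw [map_sub, map_mul, map_intCast]
        rfl
      rw [e1]
      have : x = ((u : E) * n + v * (N : E) ^ (J + i)) * x := by rw [hone, one_mul]
      rw [pow_add] at this
      linear_combination this
    refine ⟨(ι d)⁻¹ * (x - (N : E) ^ J * algebraMap (𝓞 E) E o), ⟨?_, ?_⟩,
      by rw [mul_inv_cancel_left₀ hd0, ho]⟩
    · rw [key]
      have : (ι d)⁻¹ * ((u : E) * (n : E) * x -
        (N : E) ^ J * algebraMap (𝓞 E) E (o - (v : 𝓞 E) * x₀)) =
          (u : E) * ((ι d)⁻¹ * (n : E)) * x -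
          (N : E) ^ J * ((ι d)⁻¹ * algebraMap (𝓞 E) E (o - (v : 𝓞 E) * x₀)) := by ring
      rw [this]
      exact (RS E N).sub_mem ((RS E N).mul_mem ((RS E N).mul_mem (intCast_mem _ u) h3) hx.1)
        ((RS E N).mul_mem ((RS E N).pow_mem (natCast_mem _ N) _) h2)
    · have : (g / ι d)⁻¹ * ((ι d)⁻¹ * (x - (N : E) ^ J * algebraMap (𝓞 E) E o)) =
          g⁻¹ * x - g⁻¹ * ((N : E) ^ J * algebraMap (𝓞 E) E o) := by
        rw [inv_div]
        field_simp
      rw [this]
      exact (AS E N).sub_mem hx.2 hin.2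
  · rintro i' ⟨y, hy, hxy⟩
    -- uniqueness
    set o : 𝓞 E := Quotient.out i' with ho
    have hi' : i' = Ideal.Quotient.mk I o := by rw [ho, Ideal.Quotient.mk_out]
    rw [hi', Ideal.Quotient.eq, mem_map_dId hd hd']
    apply RS_inv_pow_mul J
    have h3 : (ι d)⁻¹ * (n : E) ∈ RS E N := by
      have := map_mem_RS (E := E) (N := N) (mem_dId.1 hnd)
      rwa [map_mul, map_inv₀, map_natCast, map_natCast] at this
    have hone : ((u * n + v * N ^ (J + i) : ℤ) : E) = 1 := by rw [huv]; simp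
    push_cast at hone
    have e1 : algebraMap (𝓞 E) E (o - (v : 𝓞 E) * x₀) = algebraMap (𝓞 E) E o - (v : E) * ((N : E) ^ i * x) := by
      rw [map_sub, map_mul, map_intCast]
      rfl
    have : (N : E) ^ J * ((ι d)⁻¹ * algebraMap (𝓞 E) E (o - (v : 𝓞 E) * x₀)) =
        (u : E) * ((ι d)⁻¹ * (n : E)) * x - y := by
      rw [e1]
      have e2 : (N : E) ^ J * algebraMap (𝓞 E) E o = x - ι d * y := by rw [← hxy]; ring
      have e3 : x = ((u : E) * n + v * (N : E) ^ (J + i)) * x := by rw [hone, one_mul]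
      rw [pow_add] at e3
      field_simp
      linear_combination e2 + e3
    rw [this]
    exact (RS E N).sub_mem ((RS E N).mul_mem ((RS E N).mul_mem (intCast_mem _ u) h3) hx.1) hy.1

end Reps

end Fermat.Agent.LT.SAd
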